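import Fermat.Agent.S28.KCore.Defs
import Fermat.Prelude.Def_ModularCurve_IgusaScheme
import Fermat.Prelude.Thm_ModularCurve_coeffMap_qExpand
import Fermat.Prelude.Def_ModularCurve_JqCoeff

/-!
# S28 K-core, piece T10a: the monomials in the `j(q^d)` lie in the function field
-/

set_option autoImplicit false
set_option linter.unusedSectionVars false

open ModularCurve ModularCurve.IgusaScheme
open scoped MatrixGroups
open CongruenceSubgroup

noncomputable section

namespace Fermat.Agent.S28

variable (N : ℕ) [NeZero N]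

omit [NeZero N] in
/-- base change of `j` with integer coefficients to `ℚ` -/
theorem kcT10a_coeffMap_jA' : coeffMap (Int.castRingHom ℚ) (jA' ℤ) = jq := by
  exact map_jqModC (K := ℤ) (Int.castRingHom ℚ)

omit [NeZero N] in
/-- base change of `j(q^d)` with integer coefficients to `ℚ` -/
theorem kcT10a_coeffMap_kcjd (d : N.divisors) :
    coeffMap (Int.castRingHom ℚ) (kcjd N ℤ d) =
      (haveI := kc_neZero_of_mem_divisors N d; qExpand ℚ (d : ℕ) jq) := by
  have := kc_neZero_of_mem_divisors N d
  rw [kcjd, coeffMap_qExpand, kcT10a_coeffMap_jA']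

omit [NeZero N] in
/-- base change of the monomials to `ℚ` -/
theorem kcT10a_map_kcMono (e : N.divisors → ℕ) :
    (kcMono N ℤ e).map (Int.castRingHom ℚ) =
      ∏ d : N.divisors, (haveI := kc_neZero_of_mem_divisors N d; qExpand ℚ (d : ℕ) jq) ^ e d := by
  show coeffMap (Int.castRingHom ℚ) (kcMono N ℤ e) = _
  rw [kcMono, map_prod]
  refine Finset.prod_congr rfl fun d _ ↦ ?_
  rw [map_pow, kcT10a_coeffMap_kcjd]

/-- T10a -/
theorem kc_hF (e : N.divisors → ℕ) :
    (kcMono N ℤ e).map (Int.castRingHom ℚ) ∈ modularFunctionFieldFull N := by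
  rw [kcT10a_map_kcMono]
  refine prod_mem fun d _ ↦ pow_mem ?_ _
  have := kc_neZero_of_mem_divisors N d
  exact jqd_mem_full N (Nat.dvd_of_mem_divisors d.2)

end Fermat.Agent.S28
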