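import Mathlib.RingTheory.MvPolynomial.Homogeneous
import Mathlib.Algebra.MvPolynomial.Eval
import Mathlib.Algebra.Field.Basic
import Mathlib.Algebra.BigOperators.Field
import Mathlib.Data.Finsupp.Weight

/-!
# S28 K-core helper: fractions of homogeneous forms of the same degree

For a field extension `L / K`, an index type `G` of "generators" and a family `Y α : G → L`
(`α : Ω`), a vector `y : Ω → L` is a *homogeneous fraction* if there are homogeneous
`P, W ∈ K[G]` of the same degree with `aeval (Y α) W ≠ 0` and `y α * W(Y α) = P(Y α)` for all `α`.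

Homogeneous fractions are closed under the field operations, and finitely many of them have a
common denominator.  Used by T5 (`kc_hdim`) and T10c (`kc_hdep`).
-/

set_option autoImplicit false

namespace Fermat.Agent.S28

open MvPolynomial

variable (K : Type*) {L : Type*} [Field K] [Field L] [Algebra K L] {G Ω : Type*}

/-- `y` is a fraction of two homogeneous forms of the same degree in the `Y α`, uniformly in
`α`. -/
def kcHF_IsFrac (Y : Ω → G → L) (y : Ω → L) : Prop :=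
  ∃ (m : ℕ) (P W : MvPolynomial G K), P.IsHomogeneous m ∧ W.IsHomogeneous m ∧
    (∀ α, aeval (Y α) W ≠ 0) ∧ ∀ α, y α * aeval (Y α) W = aeval (Y α) P

variable {K} {Y : Ω → G → L} {y y' : Ω → L}

theorem kcHF_const (Y : Ω → G → L) (c : K) : kcHF_IsFrac K Y (fun _ ↦ algebraMap K L c) :=
  ⟨0, C c, 1, isHomogeneous_C _ c, isHomogeneous_one _ _, fun α ↦ by simp,
    fun α ↦ by simp⟩

theorem kcHF_zero (Y : Ω → G → L) : kcHF_IsFrac K Y (fun _ ↦ (0 : L)) := by
  simpa using kcHF_const Y (0 : K)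

theorem kcHF_one (Y : Ω → G → L) : kcHF_IsFrac K Y (fun _ ↦ (1 : L)) := by
  simpa using kcHF_const Y (1 : K)

theorem kcHF_gen (g₁ g₂ : G) (h2 : ∀ α, Y α g₂ ≠ 0) (h : ∀ α, y α * Y α g₂ = Y α g₁) :
    kcHF_IsFrac K Y y :=
  ⟨1, X g₁, X g₂, isHomogeneous_X _ g₁, isHomogeneous_X _ g₂, fun α ↦ by simpa using h2 α,
    fun α ↦ by simpa using h α⟩

theorem kcHF_IsFrac.add (h : kcHF_IsFrac K Y y) (h' : kcHF_IsFrac K Y y') :
    kcHF_IsFrac K Y (fun α ↦ y α + y' α) := by
  obtain ⟨m, P, W, hP, hW, hW0, hy⟩ := h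
  obtain ⟨m', P', W', hP', hW', hW0', hy'⟩ := h'
  refine ⟨m + m', P * W' + W * P', W * W', (hP.mul hW').add (hW.mul hP'), hW.mul hW',
    fun α ↦ ?_, fun α ↦ ?_⟩
  · rw [map_mul]; exact mul_ne_zero (hW0 α) (hW0' α)
  · rw [map_add, map_mul, map_mul, map_mul, ← hy α, ← hy' α]; ring

theorem kcHF_IsFrac.mul (h : kcHF_IsFrac K Y y) (h' : kcHF_IsFrac K Y y') :
    kcHF_IsFrac K Y (fun α ↦ y α * y' α) := by
  obtain ⟨m, P, W, hP, hW, hW0, hy⟩ := h
  obtain ⟨m', P', W', hP', hW', hW0', hy'⟩ := h'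
  refine ⟨m + m', P * P', W * W', hP.mul hP', hW.mul hW', fun α ↦ ?_, fun α ↦ ?_⟩
  · rw [map_mul]; exact mul_ne_zero (hW0 α) (hW0' α)
  · rw [map_mul, map_mul, ← hy α, ← hy' α]; ring

theorem kcHF_IsFrac.neg (h : kcHF_IsFrac K Y y) : kcHF_IsFrac K Y (fun α ↦ -y α) := by
  obtain ⟨m, P, W, hP, hW, hW0, hy⟩ := h
  exact ⟨m, -P, W, hP.neg, hW, hW0, fun α ↦ by rw [map_neg, ← hy α]; ring⟩

theorem kcHF_IsFrac.inv (h : kcHF_IsFrac K Y y) (hy0 : ∀ α, y α ≠ 0) :
    kcHF_IsFrac K Y (fun α ↦ (y α)⁻¹) := by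
  obtain ⟨m, P, W, hP, hW, hW0, hy⟩ := h
  refine ⟨m, W, P, hW, hP, fun α ↦ ?_, fun α ↦ ?_⟩
  · rw [← hy α]; exact mul_ne_zero (hy0 α) (hW0 α)
  · rw [← hy α, ← mul_assoc, inv_mul_cancel₀ (hy0 α), one_mul]

theorem kcHF_IsFrac.congr (h : kcHF_IsFrac K Y y) (hyy' : ∀ α, y α = y' α) :
    kcHF_IsFrac K Y y' := by
  have : y = y' := funext hyy'
  rwa [← this]

/-- finitely many homogeneous fractions have a common denominator -/
theorem kcHF_common {ι : Type*} [Fintype ι] (y : ι → Ω → L) (h : ∀ i, kcHF_IsFrac K Y (y i)) :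
    ∃ (m : ℕ) (W : MvPolynomial G K) (P : ι → MvPolynomial G K), W.IsHomogeneous m ∧
      (∀ i, (P i).IsHomogeneous m) ∧ (∀ α, aeval (Y α) W ≠ 0) ∧
      ∀ i α, y i α * aeval (Y α) W = aeval (Y α) (P i) := by
  classical
  choose m P W hP hW hW0 hy using h
  refine ⟨∑ i, m i, ∏ i, W i, fun i ↦ P i * ∏ k ∈ Finset.univ.erase i, W k,
    IsHomogeneous.prod _ _ _ fun i _ ↦ hW i, fun i ↦ ?_, fun α ↦ ?_, fun i α ↦ ?_⟩
  · have h1 : (∑ k, m k) = m i + ∑ k ∈ Finset.univ.erase i, m k :=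
      (Finset.add_sum_erase _ _ (Finset.mem_univ i)).symm
    rw [h1]
    exact (hP i).mul (IsHomogeneous.prod _ _ _ fun k _ ↦ hW k)
  · rw [map_prod]
    exact Finset.prod_ne_zero_iff.mpr fun i _ ↦ hW0 i α
  · have h1 : (∏ k, W k) = W i * ∏ k ∈ Finset.univ.erase i, W k :=
      (Finset.mul_prod_erase _ _ (Finset.mem_univ i)).symm
    rw [h1, map_mul, map_mul, ← hy i α]
    ring

/-! ### Binary forms -/

/-- the exponent vector of `u^a v^(s-a)` (`u = X true`, `v = X false`) -/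
noncomputable def kcHF_dmon (s : ℕ) (a : Fin (s + 1)) : Bool →₀ ℕ :=
  Finsupp.single true (a : ℕ) + Finsupp.single false (s - (a : ℕ))

theorem kcHF_dmon_degree (s : ℕ) (a : Fin (s + 1)) : (kcHF_dmon s a).degree = s := by
  rw [kcHF_dmon, map_add, Finsupp.degree_single, Finsupp.degree_single]
  have := a.2
  omega

theorem kcHF_dmon_true (s : ℕ) (a : Fin (s + 1)) : kcHF_dmon s a true = a := by
  simp [kcHF_dmon]

theorem kcHF_dmon_false (s : ℕ) (a : Fin (s + 1)) : kcHF_dmon s a false = s - a := by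
  simp [kcHF_dmon]

theorem kcHF_dmon_injective (s : ℕ) : Function.Injective (kcHF_dmon s) := by
  intro a b h
  have h1 := DFunLike.congr_fun h true
  rw [kcHF_dmon_true, kcHF_dmon_true] at h1
  exact Fin.ext h1

theorem kcHF_eq_dmon {s : ℕ} {v : Bool →₀ ℕ} (hv : v.degree = s) :
    ∃ a : Fin (s + 1), kcHF_dmon s a = v := by
  have hdeg : v.degree = v true + v false := by
    rw [Finsupp.degree_eq_sum]
    simp [add_comm]
  have hle : v true < s + 1 := by omega
  refine ⟨⟨v true, hle⟩, ?_⟩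
  ext b
  cases b
  · rw [kcHF_dmon_false]; simp only; omega
  · rw [kcHF_dmon_true]

/-- a binary form of degree `s` is the sum of its monomials `u^a v^(s-a)` -/
theorem kcHF_binary_eq {R : Type*} [CommSemiring R] {s : ℕ} {c : MvPolynomial Bool R}
    (hc : c.IsHomogeneous s) :
    c = ∑ a : Fin (s + 1), monomial (kcHF_dmon s a) (coeff (kcHF_dmon s a) c) := by
  classical
  ext v
  rw [coeff_sum]
  simp only [coeff_monomial]
  by_cases hv : v.degree = s
  · obtain ⟨a₀, rfl⟩ := kcHF_eq_dmon hv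
    rw [Finset.sum_eq_single a₀]
    · simp
    · intro b _ hb
      rw [if_neg]
      exact fun h ↦ hb (kcHF_dmon_injective s h)
    · intro h; exact absurd (Finset.mem_univ _) h
  · rw [hc.coeff_eq_zero hv]
    symm
    refine Finset.sum_eq_zero fun a _ ↦ ?_
    rw [if_neg]
    intro h
    exact hv (h ▸ kcHF_dmon_degree s a)

theorem kcHF_exists_coeff_ne_zero {R : Type*} [CommSemiring R] {s : ℕ} {c : MvPolynomial Bool R}
    (hc : c.IsHomogeneous s) (h0 : c ≠ 0) : ∃ a : Fin (s + 1), coeff (kcHF_dmon s a) c ≠ 0 := by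
  by_contra hcon
  push Not at hcon
  apply h0
  rw [kcHF_binary_eq hc]
  exact Finset.sum_eq_zero fun a _ ↦ by rw [hcon a, map_zero]

/-- evaluation of a binary form of degree `s` at `(j * D, D)` -/
theorem kcHF_aeval_binary {R A : Type*} [CommSemiring R] [CommSemiring A] [Algebra R A] {s : ℕ}
    {c : MvPolynomial Bool R} (hc : c.IsHomogeneous s) (u : Bool → A) (j : A)
    (hu : u true = j * u false) :
    aeval u c = u false ^ s *
      ∑ a : Fin (s + 1), algebraMap R A (coeff (kcHF_dmon s a) c) * j ^ (a : ℕ) := by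
  classical
  conv_lhs => rw [kcHF_binary_eq hc]
  rw [map_sum, Finset.mul_sum]
  refine Finset.sum_congr rfl fun a _ ↦ ?_
  have hprod : ((kcHF_dmon s a).prod fun b k ↦ u b ^ k)
      = u true ^ (a : ℕ) * u false ^ (s - (a : ℕ)) := by
    rw [kcHF_dmon, Finsupp.prod_add_index' (fun _ ↦ pow_zero _) (fun _ _ _ ↦ pow_add _ _ _)]
    congr 1
    · exact Finsupp.prod_single_index (pow_zero _)
    · exact Finsupp.prod_single_index (pow_zero _)
  rw [aeval_monomial, hprod, hu, mul_pow]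
  have h1 : u false ^ s = u false ^ (a : ℕ) * u false ^ (s - (a : ℕ)) := by
    rw [← pow_add]
    congr 1
    have := a.2
    omega
  rw [h1]
  ring

end Fermat.Agent.S28
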