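import Fermat.Agent.S28.KCore.Defs
import Fermat.Agent.S28.KCore.HomFrac
import Fermat.Agent.S28.KCore.HF
import Fermat.Agent.S28.Data
import Fermat.Agent.S28.ValRing
import Fermat.Prelude.Def_ModularCurve_IgusaScheme
import Fermat.Prelude.Thm_ModularCurve_coeffMap_qExpand
import Fermat.Prelude.Def_ModularCurve_JqCoeff

/-!
# S28 K-core, piece T10c: `ψ + 1` elements of the function field are `ℤ[j]`-dependent

From `AC2` (Rank) and rational descent (V6).  Route: every element of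
`modularFunctionFieldFull N` becomes, after the transport `Θ : ℚ((q)) → ℂ((t))`, `q ↦ t^N`,
a fraction of two homogeneous forms of the same degree in the generators at `cos0`
(`kcT10c_isFrac`); common denominator + `AC2` give a `ℂ[j]`-relation, V6 descends it to `ℤ`.
-/

set_option autoImplicit false
set_option linter.unusedSectionVars false

open ModularCurve ModularCurve.IgusaScheme
open scoped MatrixGroups
open CongruenceSubgroup

noncomputable section

namespace Fermat.Agent.S28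

/-- `qExpand` of a power series is the expanded power series -/
theorem kcT10c_qExpand_ofPowerSeries {R : Type*} [CommRing R] (n : ℕ) [NeZero n]
    (φ : PowerSeries R) :
    qExpand R n (HahnSeries.ofPowerSeries ℤ R φ) =
      HahnSeries.ofPowerSeries ℤ R (PowerSeries.expand n (NeZero.ne n) φ) := by
  ext k
  by_cases hk : (n : ℤ) ∣ k
  · obtain ⟨m, rfl⟩ := hk
    rw [qExpand_coeff_mul]
    rcases le_or_gt 0 m with hm | hm
    · lift m to ℕ using hm
      rw [HahnSeries.ofPowerSeries_apply_coeff,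
        show ((n : ℤ) * (m : ℤ)) = ((n * m : ℕ) : ℤ) by push_cast; ring,
        HahnSeries.ofPowerSeries_apply_coeff, PowerSeries.coeff_expand_mul]
    · rw [ofPowerSeries_coeff_of_neg _ hm, ofPowerSeries_coeff_of_neg]
      have hn : (0 : ℤ) < n := by exact_mod_cast Nat.pos_of_ne_zero (NeZero.ne n)
      exact mul_neg_of_pos_of_neg hn hm
  · rw [qExpand_coeff_of_not_dvd n _ hk]
    rcases le_or_gt 0 k with hk0 | hk0
    · lift k to ℕ using hk0
      rw [HahnSeries.ofPowerSeries_apply_coeff, PowerSeries.coeff_expand_of_not_dvd]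
      intro h
      exact hk (by exact_mod_cast h)
    · rw [ofPowerSeries_coeff_of_neg _ hk0]

/-- `j · Δ = E₄³` for the formal `q`-expansions over any ring -/
theorem kcT10c_jA'_mul (A : Type) [CommRing A] :
    jA' A * HahnSeries.ofPowerSeries ℤ A (PowerSeries.map (Int.castRingHom A) (baseSeries false))
      = HahnSeries.ofPowerSeries ℤ A (PowerSeries.map (Int.castRingHom A) (baseSeries true)) := by
  have h1 : ModularCurve.jNum * baseSeries false = PowerSeries.X * baseSeries true := by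
    have h := ModularCurve.dedekindEtaUnit_mul_inv
    simp only [baseSeries, ModularCurve.jNum]
    rw [show ModularCurve.etaProd ^ 24 = ModularCurve.dedekindEtaUnit from rfl]
    calc ModularCurve.eisenstein4 ^ 3 * ModularCurve.dedekindEtaUnitInv *
          (PowerSeries.X * ModularCurve.dedekindEtaUnit)
        = PowerSeries.X * ModularCurve.eisenstein4 ^ 3 *
          (ModularCurve.dedekindEtaUnit * ModularCurve.dedekindEtaUnitInv) := by ring
      _ = _ := by rw [h, mul_one]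
  have h2 := congrArg (fun p ↦ HahnSeries.ofPowerSeries ℤ A
    (PowerSeries.map (Int.castRingHom A) p)) h1
  simp only [map_mul, PowerSeries.map_X, HahnSeries.ofPowerSeries_X] at h2
  rw [jA', mul_assoc, h2, ← mul_assoc, HahnSeries.single_mul_single]
  simp


variable (N : ℕ) [NeZero N]

/-- the transport `ℚ((q)) → ℂ((t))`, `q ↦ t^N` -/
def kcT10c_Θ : LaurentSeries ℚ →+* LaurentSeries ℂ :=
  (qExpand ℂ N).comp (coeffMap (algebraMap ℚ ℂ))

theorem kcT10c_Θ_coeff (z : LaurentSeries ℚ) (n : ℤ) :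
    (kcT10c_Θ N z).coeff ((N : ℤ) * n) = ((z.coeff n : ℚ) : ℂ) := by
  show (qExpand ℂ N (coeffMap (algebraMap ℚ ℂ) z)).coeff ((N : ℤ) * n) = _
  rw [qExpand_coeff_mul, coeffMap_coeff]
  rfl

theorem kcT10c_Θ_injective : Function.Injective (kcT10c_Θ N) :=
  (kcT10c_Θ N).injective

/-- the generators at `cos0`, as Laurent series in `t` -/
def kcT10c_Y (_ : Unit) (g : Gen N) : LaurentSeries ℂ :=
  HahnSeries.ofPowerSeries ℤ ℂ (csC N (cos0 N) g)

theorem kcT10c_neZero (d : N.divisors) : NeZero ((d : ℕ) * N) :=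
  ⟨Nat.mul_ne_zero (Nat.pos_of_mem_divisors d.2).ne' (NeZero.ne N)⟩

theorem kcT10c_Y_eq (f : Bool) (d : N.divisors) :
    kcT10c_Y N () (f, d) = HahnSeries.C (((d : ℕ) : ℂ) ^ 12) *
      (haveI := kcT10c_neZero N d
       qExpand ℂ ((d : ℕ) * N) (HahnSeries.ofPowerSeries ℤ ℂ
        (PowerSeries.map (Int.castRingHom ℂ) (baseSeries f)))) := by
  have := kcT10c_neZero N d
  have hdN : (d : ℕ) ∣ N := Nat.dvd_of_mem_divisors d.2
  have he : (d : ℕ) * N / 1 ≠ 0 := by
    rw [Nat.div_one]; exact NeZero.ne _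
  have h1 : csC N (cos0 N) (f, d) = conjS ℂ (zetaC N) N (d : ℕ) 0 1 (baseSeries f) := by
    show conjS ℂ (zetaC N) N (cA N (cos0 N) d) (cB N (cos0 N) d) (cD N (cos0 N) d) _ = _
    rw [cA_cos0 N hdN, cB_cos0 N hdN, cD_cos0 N hdN]
  have h2 : conjS ℂ (zetaC N) N (d : ℕ) 0 1 (baseSeries f) = (((d : ℕ) : ℂ) ^ 12) •
      PowerSeries.expand ((d : ℕ) * N) (NeZero.ne _)
        (PowerSeries.map (Int.castRingHom ℂ) (baseSeries f)) := by
    rw [conjS_eq_expand _ _ _ _ _ _ he]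
    simp only [zero_mul, pow_zero, PowerSeries.rescale_one, RingHom.id_apply, Nat.div_one]
  rw [kcT10c_Y, h1, h2, kcT10c_qExpand_ofPowerSeries, HahnSeries.C_mul_eq_smul,
    PowerSeries.coe_smul]

theorem kcT10c_Y_ne_zero (f : Bool) (d : N.divisors) : kcT10c_Y N () (f, d) ≠ 0 := by
  have := kcT10c_neZero N d
  rw [kcT10c_Y_eq]
  have hd : (((d : ℕ) : ℂ) ^ 12) ≠ 0 :=
    pow_ne_zero _ (by exact_mod_cast (Nat.pos_of_mem_divisors d.2).ne')
  refine mul_ne_zero (fun h ↦ hd (HahnSeries.C_injective (h.trans (map_zero _).symm))) ?_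
  · intro h
    have h0 : qExpand ℂ ((d : ℕ) * N) (HahnSeries.ofPowerSeries ℤ ℂ
        (PowerSeries.map (Int.castRingHom ℂ) (baseSeries f))) =
        qExpand ℂ ((d : ℕ) * N) (HahnSeries.ofPowerSeries ℤ ℂ 0) := by
      rw [h, map_zero, map_zero]
    have h1 := HahnSeries.ofPowerSeries_injective (qExpand_injective _ h0)
    cases f
    · have := congrArg (PowerSeries.coeff 1) h1
      rw [PowerSeries.coeff_map, coeff_one_baseSeries_false] at this
      simp at this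
    · have := congrArg (PowerSeries.coeff 0) h1
      rw [PowerSeries.coeff_map, coeff_zero_baseSeries_true] at this
      simp at this

/-- the key relation `j(q^d) · D_d = E_d` after transport -/
theorem kcT10c_J_mul (d : N.divisors) :
    kcT10c_Θ N (haveI := kc_neZero_of_mem_divisors N d; qExpand ℚ (d : ℕ) jq) *
      kcT10c_Y N () (false, d) = kcT10c_Y N () (true, d) := by
  have := kc_neZero_of_mem_divisors N d
  have := kcT10c_neZero N d
  have h1 : kcT10c_Θ N (qExpand ℚ (d : ℕ) jq) = qExpand ℂ ((d : ℕ) * N) (jA' ℂ) := by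
    show qExpand ℂ N (coeffMap (algebraMap ℚ ℂ) (qExpand ℚ (d : ℕ) jq)) = _
    rw [coeffMap_qExpand, qExpand_qExpand]
    have h2 : coeffMap (algebraMap ℚ ℂ) jq = jA' ℂ := map_jqModC (K := ℚ) (algebraMap ℚ ℂ)
    rw [h2]
    exact qExpand_congr (mul_comm _ _) _
  rw [h1, kcT10c_Y_eq, kcT10c_Y_eq, mul_left_comm, ← map_mul, kcT10c_jA'_mul]


theorem kcT10c_Θ_algebraMap (c : ℚ) :
    kcT10c_Θ N (algebraMap ℚ (LaurentSeries ℚ) c) = algebraMap ℂ (LaurentSeries ℂ) (c : ℂ) := by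
  show qExpand ℂ N (coeffMap (algebraMap ℚ ℂ) (algebraMap ℚ (LaurentSeries ℚ) c)) = _
  rw [algebraMap_laurentSeries_eq_single, algebraMap_laurentSeries_eq_single, coeffMap_single,
    qExpand_single, mul_zero]
  rfl

/-- every element of the function field is a homogeneous fraction in the generators at `cos0` -/
theorem kcT10c_isFrac {y : LaurentSeries ℚ} (hy : y ∈ modularFunctionFieldFull N) :
    kcHF_IsFrac ℂ (kcT10c_Y N) (fun _ ↦ kcT10c_Θ N y) := by
  unfold modularFunctionFieldFull at hy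
  induction hy using IntermediateField.adjoin_induction with
  | mem x hx =>
    obtain ⟨d, hne, hd, rfl⟩ := hx
    have hdm : d ∈ N.divisors := Nat.mem_divisors.mpr ⟨hd, NeZero.ne N⟩
    exact kcHF_gen (true, ⟨d, hdm⟩) (false, ⟨d, hdm⟩)
      (fun _ ↦ kcT10c_Y_ne_zero N false ⟨d, hdm⟩) (fun _ ↦ kcT10c_J_mul N ⟨d, hdm⟩)
  | algebraMap c =>
    rw [kcT10c_Θ_algebraMap]
    exact kcHF_const _ (c : ℂ)
  | add x y _ _ hx hy =>
    exact (hx.add hy).congr fun _ ↦ (map_add _ _ _).symm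
  | inv x _ hx =>
    by_cases h0 : x = 0
    · rw [h0, inv_zero, map_zero]
      exact kcHF_zero _
    · have h1 : kcT10c_Θ N x ≠ 0 := fun h ↦ h0 (kcT10c_Θ_injective N (h.trans (map_zero _).symm))
      exact (hx.inv fun _ ↦ h1).congr fun _ ↦ (map_inv₀ _ _).symm
  | mul x y _ _ hx hy =>
    exact (hx.mul hy).congr fun _ ↦ (map_mul _ _ _).symm


theorem kcT10c_ofPS_aeval (Q : MvPolynomial (Gen N) ℂ) :
    HahnSeries.ofPowerSeries ℤ ℂ (MvPolynomial.aeval (csC N (cos0 N)) Q)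
      = MvPolynomial.aeval (kcT10c_Y N ()) Q := by
  induction Q using MvPolynomial.induction_on with
  | C a =>
    rw [MvPolynomial.aeval_C, MvPolynomial.aeval_C]
    rfl
  | add p q hp hq => rw [map_add, map_add, map_add, hp, hq]
  | mul_X p g hp =>
    rw [map_mul, map_mul, map_mul, hp, MvPolynomial.aeval_X, MvPolynomial.aeval_X]
    rfl

theorem kcT10c_gen1_mul :
    kcT10c_Y N () (gen1 N true) = kcT10c_Θ N jq * kcT10c_Y N () (gen1 N false) := by
  have h := kcT10c_J_mul N ⟨1, Nat.one_mem_divisors.mpr (NeZero.ne N)⟩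
  simp only [qExpand_one_apply] at h
  exact h.symm

theorem kcT10c_smul_coeff (r : ℂ) (z : LaurentSeries ℂ) (k : ℤ) :
    (algebraMap ℂ (LaurentSeries ℂ) r * z).coeff k = r * z.coeff k := by
  rw [algebraMap_laurentSeries_eq_single, ← HahnSeries.C_apply, HahnSeries.C_mul_eq_smul,
    HahnSeries.coeff_smul, smul_eq_mul]

/-- the integral relation, in coefficient form -/
theorem kcT10c_aux (ψ : ℕ)
    (h2 : ∀ (m : ℕ) (P : Fin (ψ + 1) → MvPolynomial (Gen N) ℂ), (∀ i, (P i).IsHomogeneous m) →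
      ∃ (s : ℕ) (c : Fin (ψ + 1) → MvPolynomial Bool ℂ), (∀ i, (c i).IsHomogeneous s) ∧
        (∃ i, c i ≠ 0) ∧
        ∑ i, MvPolynomial.aeval (csC N (cos0 N)) (MvPolynomial.rename (gen1 N) (c i) * P i) = 0)
    (y : Fin (ψ + 1) → LaurentSeries ℚ) (hy : ∀ i, y i ∈ modularFunctionFieldFull N) :
    ∃ (s : ℕ) (μ : Fin (ψ + 1) × Fin (s + 1) → ℤ), μ ≠ 0 ∧
      ∑ x : Fin (ψ + 1) × Fin (s + 1), (μ x : ℚ) • (jq ^ (x.2 : ℕ) * y x.1) = 0 := by
  classical
  obtain ⟨m', W, P, hW, hP, hW0, hyP⟩ :=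
    kcHF_common (K := ℂ) (Y := kcT10c_Y N) (fun i (_ : Unit) ↦ kcT10c_Θ N (y i))
      (fun i ↦ kcT10c_isFrac N (hy i))
  obtain ⟨s, c, hc, ⟨i₀, hi₀⟩, hrel⟩ := h2 m' P hP
  refine ⟨s, ?_⟩
  -- transport the relation to Laurent series
  have hrel' : ∑ i, MvPolynomial.aeval (kcT10c_Y N ())
      (MvPolynomial.rename (gen1 N) (c i) * P i) = 0 := by
    have := congrArg (HahnSeries.ofPowerSeries ℤ ℂ) hrel
    rw [map_sum, map_zero] at this
    simpa only [kcT10c_ofPS_aeval] using this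
  set YD := kcT10c_Y N () (gen1 N false) with hYD
  set lam : Fin (ψ + 1) × Fin (s + 1) → ℂ := fun x ↦
    MvPolynomial.coeff (kcHF_dmon s x.2) (c x.1) with hlam
  have hbin : ∀ i, MvPolynomial.aeval (kcT10c_Y N ()) (MvPolynomial.rename (gen1 N) (c i))
      = YD ^ s * ∑ a : Fin (s + 1), algebraMap ℂ (LaurentSeries ℂ) (lam (i, a)) *
          kcT10c_Θ N jq ^ (a : ℕ) := by
    intro i
    rw [MvPolynomial.aeval_rename]
    exact kcHF_aeval_binary (hc i) (kcT10c_Y N () ∘ gen1 N) (kcT10c_Θ N jq) (kcT10c_gen1_mul N)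
  have hYD0 : YD ≠ 0 := kcT10c_Y_ne_zero N false _
  have hsum : ∑ x : Fin (ψ + 1) × Fin (s + 1), algebraMap ℂ (LaurentSeries ℂ) (lam x) *
      kcT10c_Θ N (jq ^ (x.2 : ℕ) * y x.1) = 0 := by
    have h1 : (YD ^ s * MvPolynomial.aeval (kcT10c_Y N ()) W) *
        ∑ x : Fin (ψ + 1) × Fin (s + 1), algebraMap ℂ (LaurentSeries ℂ) (lam x) *
          kcT10c_Θ N (jq ^ (x.2 : ℕ) * y x.1) = 0 := by
      rw [← hrel', Fintype.sum_prod_type, Finset.mul_sum]
      refine Finset.sum_congr rfl fun i _ ↦ ?_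
      rw [map_mul, hbin i, ← hyP i (), Finset.mul_sum, Finset.mul_sum, Finset.sum_mul]
      refine Finset.sum_congr rfl fun a _ ↦ ?_
      simp only [map_mul, map_pow]
      ring
    rcases mul_eq_zero.mp h1 with h | h
    · exact absurd h (mul_ne_zero (pow_ne_zero _ hYD0) (hW0 ()))
    · exact h
  -- rational descent
  have hlam0 : lam ≠ 0 := by
    obtain ⟨a, ha⟩ := kcHF_exists_coeff_ne_zero (hc i₀) hi₀
    intro h
    exact ha (congrFun h (i₀, a))
  have hcoef : ∀ n : ℤ, ∑ x : Fin (ψ + 1) × Fin (s + 1),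
      (((jq ^ (x.2 : ℕ) * y x.1).coeff n : ℚ) : ℂ) * lam x = 0 := by
    intro n
    have := congrArg (fun z : LaurentSeries ℂ ↦ z.coeff ((N : ℤ) * n)) hsum
    simp only [HahnSeries.coeff_sum, kcT10c_smul_coeff, kcT10c_Θ_coeff,
      HahnSeries.coeff_zero] at this
    rw [← this]
    exact Finset.sum_congr rfl fun x _ ↦ mul_comm _ _
  obtain ⟨μ, hμ0, hμ⟩ := exists_int_solution
    (fun (n : ℤ) (x : Fin (ψ + 1) × Fin (s + 1)) ↦ (jq ^ (x.2 : ℕ) * y x.1).coeff n) lam hlam0 hcoef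
  refine ⟨μ, hμ0, ?_⟩
  ext n
  rw [HahnSeries.coeff_sum, HahnSeries.coeff_zero, ← hμ n]
  refine Finset.sum_congr rfl fun x _ ↦ ?_
  rw [HahnSeries.coeff_smul, smul_eq_mul, mul_comm]


/-- the polynomial with coefficients `μ (i, ·)` -/
def kcT10c_pol {ψ s : ℕ} (μ : Fin (ψ + 1) × Fin (s + 1) → ℤ) (i : Fin (ψ + 1)) : Polynomial ℤ :=
  ∑ a : Fin (s + 1), Polynomial.monomial (a : ℕ) (μ (i, a))

omit [NeZero N] in
theorem kcT10c_coeff_pol {ψ s : ℕ} (μ : Fin (ψ + 1) × Fin (s + 1) → ℤ) (i : Fin (ψ + 1))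
    (a : Fin (s + 1)) : (kcT10c_pol μ i).coeff (a : ℕ) = μ (i, a) := by
  classical
  rw [kcT10c_pol, Polynomial.finsetSum_coeff]
  simp only [Polynomial.coeff_monomial]
  rw [Finset.sum_eq_single a]
  · simp
  · intro b _ hb
    rw [if_neg]
    exact fun h ↦ hb (Fin.ext h)
  · intro h; exact absurd (Finset.mem_univ _) h

omit [NeZero N] in
theorem kcT10c_aeval_pol {ψ s : ℕ} (μ : Fin (ψ + 1) × Fin (s + 1) → ℤ) (i : Fin (ψ + 1))
    (z : LaurentSeries ℚ) :
    Polynomial.aeval jq (kcT10c_pol μ i) * z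
      = ∑ a : Fin (s + 1), (μ (i, a) : ℚ) • (jq ^ (a : ℕ) * z) := by
  rw [kcT10c_pol, map_sum, Finset.sum_mul]
  refine Finset.sum_congr rfl fun a _ ↦ ?_
  rw [Polynomial.aeval_monomial, Int.cast_smul_eq_zsmul, zsmul_eq_mul, eq_intCast, mul_assoc]

theorem kcT10c_aux2 (ψ : ℕ)
    (h2 : ∀ (m : ℕ) (P : Fin (ψ + 1) → MvPolynomial (Gen N) ℂ), (∀ i, (P i).IsHomogeneous m) →
      ∃ (s : ℕ) (c : Fin (ψ + 1) → MvPolynomial Bool ℂ), (∀ i, (c i).IsHomogeneous s) ∧
        (∃ i, c i ≠ 0) ∧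
        ∑ i, MvPolynomial.aeval (csC N (cos0 N)) (MvPolynomial.rename (gen1 N) (c i) * P i) = 0)
    (X : Fin ψ → LaurentSeries ℚ) (hX : ∀ i, X i ∈ modularFunctionFieldFull N)
    (m : LaurentSeries ℚ) (hm : m ∈ modularFunctionFieldFull N) :
    ∃ (c₀ : Polynomial ℤ) (c : Fin ψ → Polynomial ℤ), (c₀ ≠ 0 ∨ ∃ i, c i ≠ 0) ∧
      Polynomial.aeval jq c₀ * m + ∑ i, Polynomial.aeval jq (c i) * X i = 0 := by
  obtain ⟨s, μ, hμ0, hμ⟩ := kcT10c_aux N ψ h2 (Fin.cons m X)
    (fun i ↦ by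
      refine Fin.cases ?_ (fun j ↦ ?_) i
      · simpa using hm
      · simpa using hX j)
  refine ⟨kcT10c_pol μ 0, fun i ↦ kcT10c_pol μ i.succ, ?_, ?_⟩
  · obtain ⟨⟨i, a⟩, hia⟩ : ∃ x, μ x ≠ 0 := by
      by_contra hcon
      push Not at hcon
      exact hμ0 (funext hcon)
    have hne : kcT10c_pol μ i ≠ 0 := by
      intro h
      apply hia
      rw [← kcT10c_coeff_pol μ i a, h, Polynomial.coeff_zero]
    revert hne
    refine Fin.cases ?_ (fun j ↦ ?_) i
    · exact fun h ↦ Or.inl h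
    · exact fun h ↦ Or.inr ⟨j, h⟩
  · rw [← hμ, Fintype.sum_prod_type, Fin.sum_univ_succ]
    congr 1
    · rw [kcT10c_aeval_pol]
      simp
    · refine Finset.sum_congr rfl fun j _ ↦ ?_
      rw [kcT10c_aeval_pol]
      simp

/-- T10c -/
theorem kc_hdep [Fintype (Cos N)] (h2 : AC2 N)
    (x : Fin (Fintype.card (Cos N)) → LaurentSeries ℤ)
    (hx : ∀ i, (x i).map (Int.castRingHom ℚ) ∈ modularFunctionFieldFull N) :
    ∀ m ∈ modularFunctionFieldFull N, ∃ (c₀ : Polynomial ℤ)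
      (c : Fin (Fintype.card (Cos N)) → Polynomial ℤ),
      (c₀ ≠ 0 ∨ ∃ i, c i ≠ 0) ∧
      Polynomial.aeval jq c₀ * m +
        ∑ i, Polynomial.aeval jq (c i) * (x i).map (Int.castRingHom ℚ) = 0 := by
  intro m hm
  have h2' : ∀ ψ : ℕ, Nat.card (Cos N) = ψ →
      ∀ (m : ℕ) (P : Fin (ψ + 1) → MvPolynomial (Gen N) ℂ), (∀ i, (P i).IsHomogeneous m) →
      ∃ (s : ℕ) (c : Fin (ψ + 1) → MvPolynomial Bool ℂ), (∀ i, (c i).IsHomogeneous s) ∧
        (∃ i, c i ≠ 0) ∧
        ∑ i, MvPolynomial.aeval (csC N (cos0 N))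
          (MvPolynomial.rename (gen1 N) (c i) * P i) = 0 := by
    rintro ψ rfl
    exact h2
  exact kcT10c_aux2 N _ (h2' _ Nat.card_eq_fintype_card) _ hx m hm

end Fermat.Agent.S28
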