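import Fermat.Agent.S28.ValRing
import Fermat.Prelude.Def_GaloisRep_Flat
import Mathlib.LinearAlgebra.FreeModule.PID

/-!
# S28 K-core: V7, integral descent from a valuation ring of `ℂ` over `ℓ` to `ℤ_(ℓ)`
-/

set_option autoImplicit false

noncomputable section

namespace Fermat.Agent.S28

theorem kcV7_mem_ratLocalizedAt (ℓ : ℕ) (hℓ : ℓ.Prime) (z a : ℤ) (ha : ¬ (ℓ : ℤ) ∣ a) :
    ((z : ℚ) / (a : ℚ)) ∈ GaloisRep.ratLocalizedAt ℓ := by
  show ((z : ℚ) / (a : ℚ)).den.Coprime ℓ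
  have ha0 : a ≠ 0 := fun h ↦ ha (h ▸ dvd_zero _)
  have hden : (((z : ℚ) / (a : ℚ)).den : ℤ) ∣ a := by
    have := Rat.den_dvd z a
    rwa [Rat.divInt_eq_div] at this
  rw [Nat.coprime_comm, Nat.Prime.coprime_iff_not_dvd hℓ]
  intro h
  exact ha ((Int.natCast_dvd_natCast.mpr h).trans hden)

/-- V7 (integer relations version). -/
theorem kc_V7 (V : ValuationSubring ℂ) (ℓ : ℕ) (hℓ : ℓ.Prime) (hV : ((ℓ : ℂ))⁻¹ ∉ V)
    {ι : Type} [Fintype ι] (c : ι → ℂ) (hc : ∀ i, c i ∈ V) :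
    ∃ c' : ι → ℚ, (∀ i, c' i ∈ GaloisRep.ratLocalizedAt ℓ) ∧
      ∀ (M : ι → ℤ) (v : ℤ), ∑ i, (M i : ℂ) * c i = v → ∑ i, (M i : ℚ) * c' i = v := by
  classical
  set L : Submodule ℤ ℂ := Submodule.span ℤ (insert 1 (Set.range c)) with hL
  have hLV : ∀ y ∈ L, y ∈ V := by
    intro y hy
    induction hy using Submodule.span_induction with
    | mem x hx =>
      rcases hx with rfl | ⟨i, rfl⟩
      · exact V.one_mem
      · exact hc i
    | zero => exact V.zero_mem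
    | add x y _ _ hx hy => exact V.add_mem _ _ hx hy
    | smul n x _ hx =>
      rw [zsmul_eq_mul]
      exact V.mul_mem _ _ (S28_intCast_mem V n) hx
  have : Module.Finite ℤ L :=
    Module.Finite.span_of_finite ℤ ((Set.finite_range c).insert 1)
  let b := Module.Free.chooseBasis ℤ L
  let one : L := ⟨1, Submodule.subset_span (Set.mem_insert _ _)⟩
  let ci : ι → L := fun i ↦ ⟨c i, Submodule.subset_span (Set.mem_insert_of_mem _ ⟨i, rfl⟩)⟩
  obtain ⟨j, hj⟩ : ∃ j, ¬ (ℓ : ℤ) ∣ b.repr one j := by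
    by_contra hcon
    push Not at hcon
    let y : L := ∑ j, (b.repr one j / (ℓ : ℤ)) • b j
    have hy : (ℓ : ℤ) • y = one := by
      rw [← b.sum_repr one, Finset.smul_sum]
      refine Finset.sum_congr rfl fun j _ ↦ ?_
      rw [smul_smul, Int.mul_ediv_cancel' (hcon j)]
    have hy' : ((ℓ : ℤ) : ℂ) * (y : ℂ) = 1 := by
      have := congrArg (Subtype.val) hy
      simpa [zsmul_eq_mul] using this
    have hℓ0 : (ℓ : ℂ) ≠ 0 := by exact_mod_cast hℓ.ne_zero
    have : (y : ℂ) = ((ℓ : ℂ))⁻¹ := by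
      apply eq_inv_of_mul_eq_one_right
      exact_mod_cast hy'
    exact hV (this ▸ hLV _ y.2)
  set a : ℤ := b.repr one j with ha
  have ha0 : (a : ℚ) ≠ 0 := by
    have : a ≠ 0 := fun h ↦ hj (h ▸ dvd_zero _)
    exact_mod_cast this
  refine ⟨fun i ↦ ((b.repr (ci i) j : ℤ) : ℚ) / (a : ℚ),
    fun i ↦ kcV7_mem_ratLocalizedAt ℓ hℓ _ _ hj, fun M v h ↦ ?_⟩
  have hL' : ∑ i, M i • ci i = v • one := by
    apply Subtype.ext
    simp only [Submodule.coe_sum, Submodule.coe_smul, zsmul_eq_mul, ci, one, mul_one]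
    exact h
  have h2 := congrArg (fun w ↦ b.repr w j) hL'
  simp only [map_sum, map_smul, Finsupp.coe_finsetSum, Finset.sum_apply, Finsupp.smul_apply,
    smul_eq_mul] at h2
  have h3 : ∑ i, (M i : ℚ) * ((b.repr (ci i) j : ℤ) : ℚ) = (v : ℚ) * (a : ℚ) := by
    exact_mod_cast h2
  simp only [mul_div_assoc', ← Finset.sum_div]
  rw [h3, mul_div_assoc, div_self ha0, mul_one]

end Fermat.Agent.S28
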