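import Fermat.Agent.S28.KCore.HF
import Fermat.Agent.S28.KCore.V7
import Fermat.Agent.S28.Data
import Mathlib.RingTheory.PowerSeries.Expand

/-!
# S28 K-core, piece T10b: `j(q^d)` is integral over `ℤ_(ℓ)[j]`
-/

set_option autoImplicit false
set_option linter.unusedSectionVars false

open ModularCurve ModularCurve.IgusaScheme
open scoped MatrixGroups
open CongruenceSubgroup

noncomputable section

namespace Fermat.Agent.S28

/-- the integer `q`-series of the generator `(f, d)`: `d^12 φ_f(q^d)` -/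
def kcT10b_w (f : Bool) (d : ℕ) : PowerSeries ℤ :=
  PowerSeries.mk fun n ↦ if d ∣ n then (d : ℤ) ^ 12 * PowerSeries.coeff (n / d) (baseSeries f) else 0

/-- `q ↦ t^N`, coefficients to `ℂ` -/
def kcT10b_Θ (N : ℕ) [NeZero N] : PowerSeries ℤ →+* PowerSeries ℂ :=
  (PowerSeries.map (Int.castRingHom ℂ)).comp
    ((PowerSeries.expand N (NeZero.ne N) : PowerSeries ℤ →ₐ[ℤ] PowerSeries ℤ) : _ →+* _)

theorem kcT10b_coeff_Θ (N : ℕ) [NeZero N] (w : PowerSeries ℤ) (m : ℕ) :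
    PowerSeries.coeff (N * m) (kcT10b_Θ N w) = ((PowerSeries.coeff m w : ℤ) : ℂ) := by
  simp [kcT10b_Θ, PowerSeries.coeff_expand_mul]

theorem kcT10b_csC_eq (N : ℕ) [NeZero N] (f : Bool) (d : N.divisors) :
    csC N (cos0 N) (f, d) = kcT10b_Θ N (kcT10b_w f d) := by
  have hdN : (d : ℕ) ∣ N := Nat.dvd_of_mem_divisors d.2
  have hd0 : 0 < (d : ℕ) := Nat.pos_of_mem_divisors d.2
  have hN0 : 0 < N := NeZero.pos N
  ext n
  simp only [csC, cs, conjS, cA_cos0 N hdN, cB_cos0 N hdN, cD_cos0 N hdN, Nat.div_one,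
    PowerSeries.coeff_mk, zero_mul, pow_zero, one_pow, one_mul, kcT10b_Θ, RingHom.coe_comp,
    Function.comp_apply, PowerSeries.coeff_map, RingHom.coe_coe, PowerSeries.coeff_expand,
    kcT10b_w]
  by_cases h1 : (d : ℕ) * N ∣ n
  · have hNn : N ∣ n := (Dvd.intro_left _ rfl).trans h1
    have hdn : (d : ℕ) ∣ n / N := by
      obtain ⟨c, rfl⟩ := h1
      have : (d : ℕ) * N * c = N * ((d : ℕ) * c) := by ring
      rw [this, Nat.mul_div_cancel_left _ hN0]
      exact Dvd.intro _ rfl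
    rw [if_pos h1, if_pos hNn, if_pos hdn]
    have : n / ((d : ℕ) * N) = n / N / d := by
      rw [mul_comm, Nat.div_div_eq_div_mul]
    rw [this]
    simp
  · rw [if_neg h1]
    by_cases hNn : N ∣ n
    · rw [if_pos hNn]
      have hdn : ¬ (d : ℕ) ∣ n / N := by
        intro h
        apply h1
        obtain ⟨c, hc⟩ := hNn
        rw [hc, Nat.mul_div_cancel_left _ hN0] at h
        rw [hc, mul_comm]
        exact Nat.mul_dvd_mul_left N h
      rw [if_neg hdn]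
      simp
    · rw [if_neg hNn]
      simp


theorem kcT10b_w_one (f : Bool) : kcT10b_w f 1 = baseSeries f := by
  ext n
  simp [kcT10b_w]

theorem kcT10b_csC_gen1 (N : ℕ) [NeZero N] (f : Bool) :
    csC N (cos0 N) (gen1 N f) = kcT10b_Θ N (baseSeries f) := by
  have := kcT10b_csC_eq N f ⟨1, Nat.one_mem_divisors.mpr (NeZero.ne N)⟩
  rw [kcT10b_w_one] at this
  exact this

/-- the rational, `ℓ`-integral relation between the integer `q`-series -/
theorem kcT10b_rel (N : ℕ) [NeZero N] (ℓ : ℕ) (hℓ : ℓ.Prime) (hℓN : ¬ ℓ ∣ N) (d : N.divisors)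
    (h : IntRel N (true, d) (false, d)) :
    ∃ (n : ℕ) (r' : Fin n → Fin (n + 1) → ℚ), (∀ κ i, r' κ i ∈ GaloisRep.ratLocalizedAt ℓ) ∧
      ∀ m : ℕ, ((PowerSeries.coeff m (kcT10b_w true d ^ n * baseSeries false ^ n) : ℤ) : ℚ) +
        ∑ κ : Fin n, ∑ i : Fin (n + 1), r' κ i *
          ((PowerSeries.coeff m (baseSeries true ^ (i : ℕ) * baseSeries false ^ (n - (i : ℕ)) *
            kcT10b_w true d ^ (κ : ℕ) * kcT10b_w false d ^ (n - (κ : ℕ))) : ℤ) : ℚ) = 0 := by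
  obtain ⟨V, -, hV⟩ := exists_valuationSubring_prime ℓ hℓ
  have hNV := inv_natCast_mem_valuationSubring V ℓ hℓ hV N hℓN
  obtain ⟨n, r, hr, hrel⟩ := h
  rw [kcT10b_csC_gen1 N true, kcT10b_csC_gen1 N false, kcT10b_csC_eq N true d,
    kcT10b_csC_eq N false d] at hrel
  simp only [← map_pow, ← map_mul] at hrel
  obtain ⟨c', hc'mem, hc'⟩ := kc_V7 V ℓ hℓ hV (fun p : Fin n × Fin (n + 1) ↦ r p.1 p.2)
    (fun p ↦ hr p.1 p.2 V hNV)
  refine ⟨n, fun κ i ↦ c' (κ, i), fun κ i ↦ hc'mem (κ, i), fun m ↦ ?_⟩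
  have hm := congrArg (PowerSeries.coeff (N * m)) hrel
  simp only [map_add, map_sum, PowerSeries.coeff_smul, kcT10b_coeff_Θ, map_zero] at hm
  have key := hc' (fun p ↦ PowerSeries.coeff m (baseSeries true ^ (p.2 : ℕ) *
      baseSeries false ^ (n - (p.2 : ℕ)) *
      kcT10b_w true d ^ (p.1 : ℕ) * kcT10b_w false d ^ (n - (p.1 : ℕ))))
    (-(PowerSeries.coeff m (kcT10b_w true d ^ n * baseSeries false ^ n))) (by
      rw [Fintype.sum_prod_type]
      push_cast
      rw [eq_neg_iff_add_eq_zero, add_comm, ← hm]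
      congr 1
      refine Finset.sum_congr rfl fun κ _ ↦ Finset.sum_congr rfl fun i _ ↦ ?_
      ring)
  rw [Fintype.sum_prod_type] at key
  push_cast at key
  rw [eq_neg_iff_add_eq_zero, add_comm] at key
  rw [← key]
  congr 1
  refine Finset.sum_congr rfl fun κ _ ↦ Finset.sum_congr rfl fun i _ ↦ ?_
  ring


/-- `ℚ`-coefficient Laurent series of an integer power series -/
def kcT10b_L (w : PowerSeries ℤ) : LaurentSeries ℚ :=
  HahnSeries.ofPowerSeries ℤ ℚ (PowerSeries.map (Int.castRingHom ℚ) w)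

theorem kcT10b_L_mul (v w : PowerSeries ℤ) : kcT10b_L (v * w) = kcT10b_L v * kcT10b_L w := by
  simp [kcT10b_L]

theorem kcT10b_L_pow (w : PowerSeries ℤ) (n : ℕ) : kcT10b_L (w ^ n) = kcT10b_L w ^ n := by
  simp [kcT10b_L]

theorem kcT10b_L_coeff (w : PowerSeries ℤ) (m : ℕ) :
    (kcT10b_L w).coeff (m : ℤ) = ((PowerSeries.coeff m w : ℤ) : ℚ) := by
  simp [kcT10b_L, HahnSeries.ofPowerSeries_apply_coeff]

theorem kcT10b_L_coeff_neg (w : PowerSeries ℤ) {k : ℤ} (hk : k < 0) :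
    (kcT10b_L w).coeff k = 0 :=
  ofPowerSeries_coeff_of_neg _ hk

theorem kcT10b_L_ne_zero {w : PowerSeries ℤ} (hw : w ≠ 0) : kcT10b_L w ≠ 0 := by
  intro h
  apply hw
  have h1 : PowerSeries.map (Int.castRingHom ℚ) w = 0 :=
    (HahnSeries.ofPowerSeries_injective (Γ := ℤ) (R := ℚ)) (by rw [map_zero]; exact h)
  exact (PowerSeries.map_injective (Int.castRingHom ℚ) Int.cast_injective) (by rw [h1, map_zero])

/-- `j · Δ = E₄³` -/
theorem kcT10b_jq_mul : jq * kcT10b_L (baseSeries false) = kcT10b_L (baseSeries true) := by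
  have hD : baseSeries false = PowerSeries.X * dedekindEtaUnit := rfl
  have hE : baseSeries true = eisenstein4 ^ 3 := rfl
  have hj : jq = HahnSeries.single (-1 : ℤ) (1 : ℚ) * kcT10b_L jNum := rfl
  rw [hj, hD, hE, kcT10b_L_mul]
  have hX : kcT10b_L PowerSeries.X = HahnSeries.single (1 : ℤ) (1 : ℚ) := by
    simp [kcT10b_L, HahnSeries.ofPowerSeries_X]
  rw [hX]
  have h1 : HahnSeries.single (-1 : ℤ) (1 : ℚ) * kcT10b_L jNum *
      (HahnSeries.single (1 : ℤ) (1 : ℚ) * kcT10b_L dedekindEtaUnit) =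
      (HahnSeries.single (-1 : ℤ) (1 : ℚ) * HahnSeries.single (1 : ℤ) (1 : ℚ)) *
        kcT10b_L (jNum * dedekindEtaUnit) := by
    rw [kcT10b_L_mul]; ring
  rw [h1, HahnSeries.single_mul_single]
  have h2 : jNum * dedekindEtaUnit = eisenstein4 ^ 3 := by
    rw [jNum, mul_assoc, mul_comm dedekindEtaUnitInv, dedekindEtaUnit_mul_inv, mul_one]
  rw [h2]
  simp

/-- the Laurent series of the generator `(f, d)` is `d^12 · (q ↦ q^d)` of the base series -/
theorem kcT10b_L_w (f : Bool) (d : ℕ) [NeZero d] :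
    kcT10b_L (kcT10b_w f d) =
      HahnSeries.C ((d : ℚ) ^ 12) * qExpand ℚ d (kcT10b_L (baseSeries f)) := by
  ext k
  rw [HahnSeries.C_mul_eq_smul, HahnSeries.coeff_smul, smul_eq_mul]
  have hd0 : (d : ℤ) ≠ 0 := by exact_mod_cast NeZero.ne d
  by_cases hk : (d : ℤ) ∣ k
  · obtain ⟨m, rfl⟩ := hk
    rw [qExpand_coeff_mul]
    rcases lt_or_ge m 0 with hm | hm
    · have hneg : (d : ℤ) * m < 0 := by
        have hdpos : (0 : ℤ) < d := by exact_mod_cast NeZero.pos d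
        exact mul_neg_of_pos_of_neg hdpos hm
      rw [kcT10b_L_coeff_neg _ hneg, kcT10b_L_coeff_neg _ hm, mul_zero]
    · obtain ⟨m', rfl⟩ := Int.eq_ofNat_of_zero_le hm
      have : (d : ℤ) * (m' : ℤ) = ((d * m' : ℕ) : ℤ) := by push_cast; ring
      rw [this, kcT10b_L_coeff, kcT10b_L_coeff]
      simp [kcT10b_w, Nat.mul_div_cancel_left _ (NeZero.pos d)]
  · rw [qExpand_coeff_of_not_dvd _ _ hk, mul_zero]
    rcases lt_or_ge k 0 with hk0 | hk0
    · exact kcT10b_L_coeff_neg _ hk0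
    · obtain ⟨k', rfl⟩ := Int.eq_ofNat_of_zero_le hk0
      rw [kcT10b_L_coeff]
      have : ¬ d ∣ k' := fun h ↦ hk (by exact_mod_cast h)
      simp [kcT10b_w, this]

/-- `j(q^d) · D_d = E_d` -/
theorem kcT10b_jqd_mul (d : ℕ) [NeZero d] :
    qExpand ℚ d jq * kcT10b_L (kcT10b_w false d) = kcT10b_L (kcT10b_w true d) := by
  rw [kcT10b_L_w, kcT10b_L_w, ← kcT10b_jq_mul, map_mul]
  ring


theorem kcT10b_w_ne_zero (f : Bool) (d : ℕ) [NeZero d] : kcT10b_w f d ≠ 0 := by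
  intro h
  have h1 := kcT10b_L_w f d
  rw [h] at h1
  have h0 : kcT10b_L 0 = 0 := by simp [kcT10b_L]
  rw [h0] at h1
  have hb : kcT10b_L (baseSeries f) ≠ 0 := by
    apply kcT10b_L_ne_zero
    intro hb
    cases f
    · have := coeff_one_baseSeries_false
      rw [hb] at this
      simp at this
    · have := coeff_zero_baseSeries_true
      rw [hb] at this
      simp at this
  have hd : (HahnSeries.C ((d : ℚ) ^ 12) : LaurentSeries ℚ) ≠ 0 := by
    apply HahnSeries.C_ne_zero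
    exact pow_ne_zero _ (by exact_mod_cast NeZero.ne d)
  have hq : qExpand ℚ d (kcT10b_L (baseSeries f)) ≠ 0 := by
    intro h
    exact hb ((qExpand_injective d) (by rw [h, map_zero]))
  exact (mul_ne_zero hd hq) h1.symm

/-- the dehomogenised relation in `ℚ((q))` -/
theorem kcT10b_rel_laurent (N : ℕ) [NeZero N] (ℓ : ℕ) (hℓ : ℓ.Prime) (hℓN : ¬ ℓ ∣ N)
    (d : N.divisors) (h : IntRel N (true, d) (false, d)) :
    ∃ (n : ℕ) (r' : Fin n → Fin (n + 1) → ℚ), (∀ κ i, r' κ i ∈ GaloisRep.ratLocalizedAt ℓ) ∧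
      (haveI := kc_neZero_of_mem_divisors N d; qExpand ℚ (d : ℕ) jq) ^ n +
        ∑ κ : Fin n, ∑ i : Fin (n + 1), HahnSeries.C (r' κ i) *
          (jq ^ (i : ℕ) *
            (haveI := kc_neZero_of_mem_divisors N d; qExpand ℚ (d : ℕ) jq) ^ (κ : ℕ)) = 0 := by
  have := kc_neZero_of_mem_divisors N d
  obtain ⟨n, r', hr', hrel⟩ := kcT10b_rel N ℓ hℓ hℓN d h
  refine ⟨n, r', hr', ?_⟩
  set a := kcT10b_L (kcT10b_w true d) with ha
  set b := kcT10b_L (kcT10b_w false d) with hb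
  set E := kcT10b_L (baseSeries true) with hE
  set D := kcT10b_L (baseSeries false) with hD
  set jd := qExpand ℚ (d : ℕ) jq with hjd
  have hrelL : a ^ n * D ^ n + ∑ κ : Fin n, ∑ i : Fin (n + 1), HahnSeries.C (r' κ i) *
      (E ^ (i : ℕ) * D ^ (n - (i : ℕ)) * a ^ (κ : ℕ) * b ^ (n - (κ : ℕ))) = 0 := by
    simp only [ha, hb, hE, hD, ← kcT10b_L_pow, ← kcT10b_L_mul]
    ext k
    simp only [HahnSeries.coeff_add, HahnSeries.coeff_sum, HahnSeries.C_mul_eq_smul,
      HahnSeries.coeff_smul, smul_eq_mul, HahnSeries.coeff_zero]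
    rcases lt_or_ge k 0 with hk | hk
    · simp [kcT10b_L_coeff_neg _ hk]
    · obtain ⟨m, rfl⟩ := Int.eq_ofNat_of_zero_le hk
      simp only [kcT10b_L_coeff]
      exact hrel m
  have hab : a = jd * b := (kcT10b_jqd_mul d).symm
  have hED : E = jq * D := kcT10b_jq_mul.symm
  have hb0 : b ≠ 0 := kcT10b_L_ne_zero (kcT10b_w_ne_zero false d)
  have hD0 : D ≠ 0 := by
    apply kcT10b_L_ne_zero
    intro hb
    have := coeff_one_baseSeries_false
    rw [hb] at this
    simp at this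
  have hfac : a ^ n * D ^ n + ∑ κ : Fin n, ∑ i : Fin (n + 1), HahnSeries.C (r' κ i) *
      (E ^ (i : ℕ) * D ^ (n - (i : ℕ)) * a ^ (κ : ℕ) * b ^ (n - (κ : ℕ))) =
      (b ^ n * D ^ n) * (jd ^ n + ∑ κ : Fin n, ∑ i : Fin (n + 1), HahnSeries.C (r' κ i) *
        (jq ^ (i : ℕ) * jd ^ (κ : ℕ))) := by
    rw [mul_add, Finset.mul_sum]
    congr 1
    · rw [hab]; ring
    · refine Finset.sum_congr rfl fun κ _ ↦ ?_
      rw [Finset.mul_sum]
      refine Finset.sum_congr rfl fun i _ ↦ ?_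
      have hi : (i : ℕ) ≤ n := Nat.lt_succ_iff.1 i.2
      have hκ : (κ : ℕ) ≤ n := κ.2.le
      have e1 : D ^ n = D ^ (i : ℕ) * D ^ (n - (i : ℕ)) := by
        rw [← pow_add, Nat.add_sub_cancel' hi]
      have e2 : b ^ n = b ^ (κ : ℕ) * b ^ (n - (κ : ℕ)) := by
        rw [← pow_add, Nat.add_sub_cancel' hκ]
      rw [hab, hED, e1, e2]
      ring
  rw [hfac] at hrelL
  exact (mul_eq_zero.mp hrelL).resolve_left (mul_ne_zero (pow_ne_zero _ hb0) (pow_ne_zero _ hD0))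


/-- `j(q^d)` is integral over `ℤ_(ℓ)[j]`. -/
theorem kcT10b_jd_mem (N : ℕ) [NeZero N] (ℓ : ℕ) [Fact ℓ.Prime] (hℓN : ¬ ℓ ∣ N) (h3 : AC3 N)
    (d : N.divisors)
    (hF : (haveI := kc_neZero_of_mem_divisors N d; qExpand ℚ (d : ℕ) jq) ∈
      modularFunctionFieldFull N) :
    (⟨(haveI := kc_neZero_of_mem_divisors N d; qExpand ℚ (d : ℕ) jq), hF⟩ :
      modularFunctionFieldFull N) ∈ chartAlgFin N ℓ := by
  have := kc_neZero_of_mem_divisors N d
  obtain ⟨n, r', hr', hrel⟩ := kcT10b_rel_laurent N ℓ (Fact.out) hℓN d (h3 d).1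
  rw [mem_chartAlg_iff]
  set R := Algebra.adjoin ↥(GaloisRep.ratLocalizedAt ℓ) ({jFull N} : Set ↥(modularFunctionFieldFull N))
    with hR
  set jR : R := ⟨jFull N, Algebra.subset_adjoin (Set.mem_singleton _)⟩ with hjR
  set x : ↥(modularFunctionFieldFull N) := ⟨qExpand ℚ (d : ℕ) jq, hF⟩ with hx
  set c : Fin n → R := fun κ ↦ ∑ i : Fin (n + 1),
    algebraMap ↥(GaloisRep.ratLocalizedAt ℓ) R ⟨r' κ i, hr' κ i⟩ * jR ^ (i : ℕ) with hc
  refine ⟨Polynomial.X ^ n + ∑ κ : Fin n, Polynomial.C (c κ) * Polynomial.X ^ (κ : ℕ),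
    Polynomial.monic_X_pow_add (Polynomial.degree_sum_fin_lt c), ?_⟩
  rw [Polynomial.eval₂_add, Polynomial.eval₂_pow, Polynomial.eval₂_X, Polynomial.eval₂_finsetSum]
  simp only [Polynomial.eval₂_mul, Polynomial.eval₂_C, Polynomial.eval₂_pow, Polynomial.eval₂_X]
  apply Subtype.ext
  have hcval : ∀ κ, (((algebraMap R ↥(modularFunctionFieldFull N) (c κ) :
      ↥(modularFunctionFieldFull N))) : LaurentSeries ℚ) =
      ∑ i : Fin (n + 1), HahnSeries.C (r' κ i) * jq ^ (i : ℕ) := by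
    intro κ
    simp only [hc, map_sum, map_mul, map_pow]
    rw [IntermediateField.coe_sum]
    refine Finset.sum_congr rfl fun i _ ↦ ?_
    rw [IntermediateField.coe_mul, IntermediateField.coe_pow]
    congr 1
  rw [IntermediateField.coe_add, IntermediateField.coe_pow, IntermediateField.coe_sum]
  simp only [IntermediateField.coe_mul, IntermediateField.coe_pow, hcval]
  rw [IntermediateField.coe_zero, ← hrel]
  congr 1
  refine Finset.sum_congr rfl fun κ _ ↦ ?_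
  rw [Finset.sum_mul]
  refine Finset.sum_congr rfl fun i _ ↦ ?_
  ring

/-- T10b -/
theorem kc_hInt (N : ℕ) [NeZero N] (ℓ : ℕ) [Fact ℓ.Prime] (hℓN : ¬ ℓ ∣ N) (h3 : AC3 N)
    (e : N.divisors → ℕ)
    (hF : (kcMono N ℤ e).map (Int.castRingHom ℚ) ∈ modularFunctionFieldFull N) :
    (⟨(kcMono N ℤ e).map (Int.castRingHom ℚ), hF⟩ : modularFunctionFieldFull N) ∈
      chartAlgFin N ℓ := by
  have hjd : ∀ d : N.divisors, (haveI := kc_neZero_of_mem_divisors N d; qExpand ℚ (d : ℕ) jq) ∈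
      modularFunctionFieldFull N := fun d ↦ by
    have := kc_neZero_of_mem_divisors N d
    exact jqd_mem_full N (Nat.dvd_of_mem_divisors d.2)
  have key : (⟨(kcMono N ℤ e).map (Int.castRingHom ℚ), hF⟩ : modularFunctionFieldFull N) =
      ∏ d : N.divisors, (⟨_, hjd d⟩ : modularFunctionFieldFull N) ^ e d := by
    apply Subtype.ext
    rw [IntermediateField.coe_prod]
    simp only [IntermediateField.coe_pow]
    exact kcT10a_map_kcMono N e
  rw [key]
  exact Subalgebra.prod_mem _ fun d _ ↦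
    Subalgebra.pow_mem _ (kcT10b_jd_mem N ℓ hℓN h3 d (hjd d)) _

end Fermat.Agent.S28
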