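import Fermat.Agent.S28.KCore.Basic
import Mathlib

/-!
# S28 K-core, piece T5: any `ψ + 1` elements of `Q` are dependent over `k(j̄)`

`𝒮` = the set of vectors `y ∈ 𝕂^Ω` of the form `P / W`, `P, W` homogeneous of the same degree in the
generators, `W` nowhere zero.  `𝒮` is a `k(j̄)`-subalgebra containing the generators of `Q`.
A common denominator and `kcRl` give the dependence.
-/

set_option autoImplicit false
set_option linter.unusedSectionVars false

open scoped MatrixGroups
open CongruenceSubgroup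

noncomputable section

namespace Fermat.Agent.S28

/-! ### generalities on homogeneous polynomials -/

theorem kcT5_aeval_mul_of_isHomogeneous {σ R A : Type*} [CommRing R] [CommRing A] [Algebra R A]
    {P : MvPolynomial σ R} {m : ℕ} (hP : P.IsHomogeneous m) (c : A) (x : σ → A) :
    MvPolynomial.aeval (fun i ↦ c * x i) P = c ^ m * MvPolynomial.aeval x P := by
  rw [MvPolynomial.aeval_def, MvPolynomial.aeval_def, MvPolynomial.eval₂_eq,
    MvPolynomial.eval₂_eq, Finset.mul_sum]
  refine Finset.sum_congr rfl fun μ hμ ↦ ?_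
  have hdeg : ∑ i ∈ μ.support, μ i = m := by
    have := hP (MvPolynomial.mem_support_iff.mp hμ)
    simpa [Finsupp.weight_apply, Finsupp.sum] using this
  simp only [mul_pow, Finset.prod_mul_distrib, Finset.prod_pow_eq_pow_sum]
  rw [hdeg]
  ring

/-- dehomogenisation of binary forms: `X_true ↦ X`, `X_false ↦ 1`. -/
def kcT5_dehom (k : Type) [Field k] : MvPolynomial Bool k →ₐ[k] Polynomial k :=
  MvPolynomial.aeval (fun b : Bool => cond b Polynomial.X 1)

theorem kcT5_dehom_ne_zero {k : Type} [Field k] {c : MvPolynomial Bool k} {s : ℕ}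
    (hc : c.IsHomogeneous s) (hc0 : c ≠ 0) : kcT5_dehom k c ≠ 0 := by
  classical
  obtain ⟨d₀, hd₀⟩ := MvPolynomial.support_nonempty.2 hc0
  have hdeg : ∀ d ∈ c.support, d true + d false = s := by
    intro d hd
    have := hc (MvPolynomial.mem_support_iff.mp hd)
    rw [← this]
    simp [Finsupp.weight_apply, Finsupp.sum_fintype, add_comm]
  have key : kcT5_dehom k c =
      ∑ d ∈ c.support, Polynomial.C (MvPolynomial.coeff d c) * Polynomial.X ^ (d true) := by
    rw [kcT5_dehom, MvPolynomial.aeval_def, MvPolynomial.eval₂_eq']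
    refine Finset.sum_congr rfl fun d _ => ?_
    simp
  intro h0
  have h1 := congrArg (fun p => Polynomial.coeff p (d₀ true)) h0
  simp only [key, Polynomial.finsetSum_coeff, Polynomial.coeff_C_mul, Polynomial.coeff_X_pow,
    Polynomial.coeff_zero] at h1
  rw [Finset.sum_eq_single d₀] at h1
  · simp only [if_true, mul_one] at h1
    exact (MvPolynomial.mem_support_iff.mp hd₀) h1
  · intro d hd hne
    have : d₀ true ≠ d true := by
      intro h
      apply hne
      ext b
      cases b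
      · have h2 := hdeg d hd
        have h3 := hdeg d₀ hd₀
        omega
      · exact h.symm
    rw [if_neg this, mul_zero]
  · intro h
    exact absurd hd₀ h

variable (N : ℕ) [NeZero N] (k : Type) [Field k] (z : k)

/-! ### evaluation at a conjugate -/

/-- the inclusion `k[[t]] → k((t))` as a `k`-algebra map. -/
def kcT5_ofPS : PowerSeries k →ₐ[k] LaurentSeries k :=
  { HahnSeries.ofPowerSeries ℤ k with
    commutes' := fun c => (kc_algebraMap_eq_C k c).symm }

theorem kcT5_ofPS_apply (f : PowerSeries k) : kcT5_ofPS k f = HahnSeries.ofPowerSeries ℤ k f := rfl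

/-- evaluation of a polynomial in the generators at the conjugate `α`, in `k((t))`. -/
def kcT5_ev (α : Cos N) : MvPolynomial (Gen N) k →ₐ[k] LaurentSeries k :=
  MvPolynomial.aeval (fun g => kcY N k z g α)

theorem kcT5_ev_X (α : Cos N) (g : Gen N) :
    kcT5_ev N k z α (MvPolynomial.X g) = kcY N k z g α := by
  simp [kcT5_ev]

theorem kcT5_ev_eq (α : Cos N) (P : MvPolynomial (Gen N) k) :
    kcT5_ev N k z α P =
      HahnSeries.ofPowerSeries ℤ k (MvPolynomial.aeval (cs k z N α) P) := by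
  have h := MvPolynomial.comp_aeval (R := k) (cs k z N α) (kcT5_ofPS k)
  have h2 := congrArg (fun φ => φ P) h
  simp only [AlgHom.comp_apply] at h2
  rw [kcT5_ev]
  exact h2.symm

theorem kcT5_kcY_gen1 (f : Bool) (α : Cos N) :
    kcY N k z (gen1 N f) α = HahnSeries.ofPowerSeries ℤ k (kcBase N k f) := by
  unfold kcY
  rw [kc_cs_gen1]

/-- the value of a binary form at `(Ē, D̄)`, seen at any conjugate. -/
theorem kcT5_ev_rename (α : Cos N) (c : MvPolynomial Bool k) :
    kcT5_ev N k z α (MvPolynomial.rename (gen1 N) c) =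
      MvPolynomial.aeval (fun b => HahnSeries.ofPowerSeries ℤ k (kcBase N k b)) c := by
  rw [kcT5_ev, MvPolynomial.aeval_rename]
  have h : ((fun g => kcY N k z g α) ∘ gen1 N) =
      fun b => HahnSeries.ofPowerSeries ℤ k (kcBase N k b) := by
    funext b
    exact kcT5_kcY_gen1 N k z b α
  rw [h]

/-- a binary form of degree `s` at `(Ē, D̄)` is `D̄^s` times its dehomogenisation at `j̄`. -/
theorem kcT5_binary_eq {c : MvPolynomial Bool k} {s : ℕ} (hc : c.IsHomogeneous s) :
    MvPolynomial.aeval (fun b => HahnSeries.ofPowerSeries ℤ k (kcBase N k b)) c =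
      HahnSeries.ofPowerSeries ℤ k (kcBase N k false) ^ s *
        Polynomial.aeval (kcj N k) (kcT5_dehom k c) := by
  have h1 : (fun b => HahnSeries.ofPowerSeries ℤ k (kcBase N k b)) =
      fun b : Bool => HahnSeries.ofPowerSeries ℤ k (kcBase N k false) * cond b (kcj N k) 1 := by
    funext b
    cases b
    · simp
    · simp only [cond_true]
      rw [mul_comm, kc_kcj_mul_D]
  rw [h1, kcT5_aeval_mul_of_isHomogeneous hc]
  congr 1
  have h2 := MvPolynomial.comp_aeval (R := k) (fun b : Bool => cond b (Polynomial.X : Polynomial k) 1)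
    (Polynomial.aeval (kcj N k) : Polynomial k →ₐ[k] LaurentSeries k)
  have h3 := congrArg (fun φ => φ c) h2
  simp only [AlgHom.comp_apply] at h3
  rw [kcT5_dehom, h3]
  have h4 : (fun i : Bool => (Polynomial.aeval (kcj N k))
      (cond i (Polynomial.X : Polynomial k) 1)) = fun b : Bool => cond b (kcj N k) 1 := by
    funext b
    cases b <;> simp
  rw [h4]

/-! ### the set `𝒮` of homogeneous fractions -/

/-- vectors of the form `P / W` with `P`, `W` homogeneous of the same degree, `W` nowhere zero. -/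
def kcT5_S : Set (Cos N → LaurentSeries k) :=
  {y | ∃ (m : ℕ) (P W : MvPolynomial (Gen N) k), P.IsHomogeneous m ∧ W.IsHomogeneous m ∧
      (∀ α, kcT5_ev N k z α W ≠ 0) ∧ ∀ α, y α * kcT5_ev N k z α W = kcT5_ev N k z α P}

variable {N k z}

theorem kcT5_S_algebraMap (c : k) :
    (fun _ => algebraMap k (LaurentSeries k) c) ∈ kcT5_S N k z := by
  refine ⟨0, MvPolynomial.C c, 1, MvPolynomial.isHomogeneous_C _ c,
    MvPolynomial.isHomogeneous_one _ _, fun α => ?_, fun α => ?_⟩
  · rw [map_one]; exact one_ne_zero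
  · rw [map_one, mul_one, ← MvPolynomial.algebraMap_eq, AlgHom.commutes]

theorem kcT5_S_add {x y : Cos N → LaurentSeries k} (hx : x ∈ kcT5_S N k z)
    (hy : y ∈ kcT5_S N k z) : x + y ∈ kcT5_S N k z := by
  obtain ⟨m₁, P₁, W₁, hP₁, hW₁, hne₁, h₁⟩ := hx
  obtain ⟨m₂, P₂, W₂, hP₂, hW₂, hne₂, h₂⟩ := hy
  refine ⟨m₁ + m₂, P₁ * W₂ + W₁ * P₂, W₁ * W₂, (hP₁.mul hW₂).add (hW₁.mul hP₂), hW₁.mul hW₂,
    fun α => ?_, fun α => ?_⟩
  · rw [map_mul]; exact mul_ne_zero (hne₁ α) (hne₂ α)
  · rw [map_add, map_mul, map_mul, map_mul, ← h₁ α, ← h₂ α, Pi.add_apply]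
    ring

theorem kcT5_S_mul {x y : Cos N → LaurentSeries k} (hx : x ∈ kcT5_S N k z)
    (hy : y ∈ kcT5_S N k z) : x * y ∈ kcT5_S N k z := by
  obtain ⟨m₁, P₁, W₁, hP₁, hW₁, hne₁, h₁⟩ := hx
  obtain ⟨m₂, P₂, W₂, hP₂, hW₂, hne₂, h₂⟩ := hy
  refine ⟨m₁ + m₂, P₁ * P₂, W₁ * W₂, hP₁.mul hP₂, hW₁.mul hW₂, fun α => ?_, fun α => ?_⟩
  · rw [map_mul]; exact mul_ne_zero (hne₁ α) (hne₂ α)
  · rw [map_mul, map_mul, ← h₁ α, ← h₂ α, Pi.mul_apply]
    ring

theorem kcT5_S_zero : (0 : Cos N → LaurentSeries k) ∈ kcT5_S N k z := by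
  have h := kcT5_S_algebraMap (N := N) (z := z) (0 : k)
  rw [map_zero] at h
  exact h

theorem kcT5_S_inv_const {b : LaurentSeries k} (hb : (fun _ => b) ∈ kcT5_S N k z) :
    (fun _ => b⁻¹) ∈ kcT5_S N k z := by
  rcases eq_or_ne b 0 with rfl | hb0
  · rw [inv_zero]; exact hb
  obtain ⟨m, P, W, hP, hW, hne, h⟩ := hb
  have hPne : ∀ α, kcT5_ev N k z α P ≠ 0 := fun α => by
    rw [← h α]; exact mul_ne_zero hb0 (hne α)
  refine ⟨m, W, P, hW, hP, hPne, fun α => ?_⟩
  rw [← h α, ← mul_assoc, inv_mul_cancel₀ hb0, one_mul]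

theorem kcT5_S_ratio (hz : IsPrimitiveRoot z N) (A B : Gen N) :
    (fun α => kcY N k z A α / kcY N k z B α) ∈ kcT5_S N k z := by
  refine ⟨1, MvPolynomial.X A, MvPolynomial.X B, MvPolynomial.isHomogeneous_X _ _,
    MvPolynomial.isHomogeneous_X _ _, fun α => ?_, fun α => ?_⟩
  · rw [kcT5_ev_X]; exact kcY_ne_zero hz α B
  · rw [kcT5_ev_X, kcT5_ev_X, div_mul_cancel₀ _ (kcY_ne_zero hz α B)]

theorem kcT5_S_kcj (hz : IsPrimitiveRoot z N) : (fun _ => kcj N k) ∈ kcT5_S N k z := by
  have h := kcT5_S_ratio hz (gen1 N true) (gen1 N false)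
  have e : (fun α => kcY N k z (gen1 N true) α / kcY N k z (gen1 N false) α) =
      fun _ => kcj N k := by
    funext α
    rw [kcT5_kcY_gen1, kcT5_kcY_gen1]
    rfl
  rwa [e] at h

theorem kcT5_S_const (hz : IsPrimitiveRoot z N) {b : LaurentSeries k} (hb : b ∈ kcB N k) :
    (fun _ => b) ∈ kcT5_S N k z := by
  unfold kcB at hb
  induction hb using IntermediateField.adjoin_induction with
  | mem x hx =>
    rw [Set.mem_singleton_iff] at hx
    subst hx
    exact kcT5_S_kcj hz
  | algebraMap x => exact kcT5_S_algebraMap x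
  | add x y _ _ hx hy => exact kcT5_S_add hx hy
  | inv x _ hx => exact kcT5_S_inv_const hx
  | mul x y _ _ hx hy => exact kcT5_S_mul hx hy

variable (N k z)

/-- `𝒮` as a `k(j̄)`-subalgebra. -/
def kcT5_Salg (hz : IsPrimitiveRoot z N) : Subalgebra ↥(kcB N k) (Cos N → LaurentSeries k) where
  carrier := kcT5_S N k z
  mul_mem' := kcT5_S_mul
  add_mem' := kcT5_S_add
  algebraMap_mem' := fun b => kcT5_S_const hz b.2

variable {N k z}

theorem kcT5_Q_le (hz : IsPrimitiveRoot z N) : kcQ N k z ≤ kcT5_Salg N k z hz := by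
  unfold kcQ
  refine Algebra.adjoin_le ?_
  rintro y ((⟨d, rfl⟩ | ⟨d, rfl⟩) | ⟨d, rfl⟩)
  · exact kcT5_S_ratio hz (true, d) (false, d)
  · have h := kcT5_S_ratio hz (false, d) (gen1 N false)
    have e : (fun α => kcY N k z (false, d) α / kcY N k z (gen1 N false) α) = kcU N k z d := by
      funext α
      rw [kcT5_kcY_gen1]
      rfl
    rw [e] at h
    exact h
  · have h := kcT5_S_ratio hz (gen1 N false) (false, d)
    have e : (fun α => kcY N k z (gen1 N false) α / kcY N k z (false, d) α) =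
        kcUinv N k z d := by
      funext α
      rw [kcT5_kcY_gen1]
      rfl
    rw [e] at h
    exact h

theorem kcT5_aeval_mem_kcB (N : ℕ) [NeZero N] (k : Type) [Field k] (p : Polynomial k) :
    Polynomial.aeval (kcj N k) p ∈ kcB N k := by
  unfold kcB
  exact IntermediateField.algebra_adjoin_le_adjoin k _
    (Polynomial.aeval_mem_adjoin_singleton k (kcj N k))

variable (N k z) [Fintype (Cos N)] [DecidableEq (Cos N)]

/-- **T5** any `ψ + 1` elements of `Q` are dependent over `k(j̄)`. -/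
theorem kc_hdim (hz : IsPrimitiveRoot z N) (hR : kcRl N k z)
    (y : Fin (Fintype.card (Cos N) + 1) → (Cos N → LaurentSeries k))
    (hy : ∀ i, y i ∈ kcQ N k z) : ¬ LinearIndependent ↥(kcB N k) y := by
  classical
  have hS : ∀ i, y i ∈ kcT5_S N k z := fun i => kcT5_Q_le hz (hy i)
  choose m P W hP hW hne hrel using hS
  -- common denominator
  have hP' : ∀ i, (P i * ∏ j ∈ Finset.univ.erase i, W j).IsHomogeneous (∑ j, m j) := by
    intro i
    have h1 := (hP i).mul
      (MvPolynomial.IsHomogeneous.prod (Finset.univ.erase i) W m (fun j _ => hW j))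
    have h2 : m i + ∑ j ∈ Finset.univ.erase i, m j = ∑ j, m j :=
      Finset.add_sum_erase _ _ (Finset.mem_univ i)
    rwa [h2] at h1
  have hWall : ∀ α, ∏ j, kcT5_ev N k z α (W j) ≠ 0 := fun α =>
    Finset.prod_ne_zero_iff.2 (fun j _ => hne j α)
  have hyP' : ∀ i α, y i α * ∏ j, kcT5_ev N k z α (W j) =
      kcT5_ev N k z α (P i * ∏ j ∈ Finset.univ.erase i, W j) := by
    intro i α
    rw [← Finset.mul_prod_erase _ _ (Finset.mem_univ i), ← mul_assoc, hrel i α, map_mul,
      map_prod]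
  obtain ⟨s, c, hc, ⟨i₀, hi₀⟩, hsum⟩ := hR (∑ j, m j) _ hP'
  have hD : HahnSeries.ofPowerSeries ℤ k (kcBase N k false) ≠ 0 :=
    kc_ofPS_ne_zero k (kc_kcBase_false_ne_zero N k)
  rw [Fintype.not_linearIndependent_iff]
  refine ⟨fun i => ⟨Polynomial.aeval (kcj N k) (kcT5_dehom k (c i)),
    kcT5_aeval_mem_kcB N k _⟩, ?_, i₀, ?_⟩
  · funext α
    have h1 := congrArg (HahnSeries.ofPowerSeries ℤ k) (hsum α)
    rw [map_sum, map_zero] at h1
    have h2 : ∀ i, HahnSeries.ofPowerSeries ℤ k (MvPolynomial.aeval (cs k z N α)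
        (MvPolynomial.rename (gen1 N) (c i) * (P i * ∏ j ∈ Finset.univ.erase i, W j))) =
        (HahnSeries.ofPowerSeries ℤ k (kcBase N k false) ^ s * ∏ j, kcT5_ev N k z α (W j)) *
          (Polynomial.aeval (kcj N k) (kcT5_dehom k (c i)) * y i α) := by
      intro i
      rw [← kcT5_ev_eq, map_mul, kcT5_ev_rename, kcT5_binary_eq N k (hc i), ← hyP' i α]
      ring
    simp only [h2] at h1
    rw [← Finset.mul_sum] at h1
    have h3 := (mul_eq_zero.1 h1).resolve_left (mul_ne_zero (pow_ne_zero _ hD) (hWall α))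
    rw [Finset.sum_apply, Pi.zero_apply]
    exact h3
  · intro h
    have h4 : Polynomial.aeval (kcj N k) (kcT5_dehom k (c i₀)) = 0 := congrArg Subtype.val h
    exact kcT5_dehom_ne_zero (hc i₀) hi₀
      ((transcendental_iff.1 (kc_kcj_transcendental N k)) _ h4)

end Fermat.Agent.S28
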