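import Fermat.Agent.S28.KCore.Defs
import Fermat.Agent.S28.Data
import Mathlib.RingTheory.RootsOfUnity.PrimitiveRoots

/-!
# S28 K-core: basic facts (orders and leading coefficients of the conjugate expansions over a
field `k`, nonvanishing, transcendence of `j̄`).  Data facts on `cA, cB, cD` are in `Data.lean`.
-/

set_option autoImplicit false
set_option linter.unusedSectionVars false

open scoped MatrixGroups
open CongruenceSubgroup

noncomputable section

namespace Fermat.Agent.S28

section data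

variable (N : ℕ) [NeZero N]

/-- the exponent `a N / d'` of `t` in the conjugate expansion. -/
def kcM (α : Cos N) (d : ℕ) : ℕ := cA N α d * N / cD N α d

omit [NeZero N] in
theorem kc_cD_dvd {d : ℕ} (hd : d ∣ N) (α : Cos N) : cD N α d ∣ N :=
  (Dvd.intro_left _ (cA_mul_cD N α d)).trans hd

omit [NeZero N] in
theorem kcM_eq {d : ℕ} (hd : d ∣ N) (α : Cos N) : kcM N α d = cA N α d * (N / cD N α d) := by
  unfold kcM
  exact Nat.mul_div_assoc _ (kc_cD_dvd N hd α)

/-- `d * (a N / d') = a² N`. -/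
theorem kcM_mul {d : ℕ} (hd : d ∣ N) (α : Cos N) : d * kcM N α d = cA N α d ^ 2 * N := by
  have hd0 : 0 < d := Nat.pos_of_dvd_of_pos hd (Nat.pos_of_ne_zero (NeZero.ne N))
  rw [kcM_eq N hd]
  obtain ⟨q, hq⟩ := kc_cD_dvd N hd α
  have hD := cD_pos N α hd0
  have hq' : N / cD N α d = q := Nat.div_eq_of_eq_mul_right hD hq
  rw [hq']
  have h1 := cA_mul_cD N α d
  calc d * (cA N α d * q) = (cA N α d * cD N α d) * (cA N α d * q) := by rw [h1]
    _ = cA N α d ^ 2 * (cD N α d * q) := by ring
    _ = cA N α d ^ 2 * N := by rw [← hq]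

theorem kcM_pos {d : ℕ} (hd : d ∣ N) (α : Cos N) : 0 < kcM N α d := by
  have hd0 : 0 < d := Nat.pos_of_dvd_of_pos hd (Nat.pos_of_ne_zero (NeZero.ne N))
  have hN : 0 < N := Nat.pos_of_ne_zero (NeZero.ne N)
  have h := kcM_mul N hd α
  have hA := cA_pos N α hd0
  rcases Nat.eq_zero_or_pos (kcM N α d) with h0 | h0
  · rw [h0, Nat.mul_zero] at h
    have : 0 < cA N α d ^ 2 * N := Nat.mul_pos (pow_pos hA 2) hN
    omega
  · exact h0

theorem kcM_cos0 {d : ℕ} (hd : d ∣ N) : kcM N (cos0 N) d = d * N := by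
  unfold kcM
  rw [cA_cos0 N hd, cD_cos0 N hd, Nat.div_one]

omit [NeZero N] in
theorem kcM_one (α : Cos N) : kcM N α 1 = N := by
  unfold kcM
  rw [cA_one, cD_one, Nat.div_one, Nat.one_mul]

end data

section series

variable (N : ℕ) [NeZero N] (k : Type) [Field k] (z : k)

omit [NeZero N] in
theorem kc_cs_eq (α : Cos N) (f : Bool) (d : N.divisors) :
    cs k z N α (f, d) =
      conjS k z N (cA N α d) (cB N α d) (cD N α d) (baseSeries f) := rfl

/-- the conjugates of the level one generators are `φ_f(t^N)`, for every `α`. -/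
theorem kc_cs_gen1 (α : Cos N) (f : Bool) : cs k z N α (gen1 N f) = kcBase N k f := by
  unfold cs kcBase gen1
  simp only [cA_one, cB_one, cD_one]
  ext n
  simp [conjS]

theorem kc_coeff_cs_mul (α : Cos N) (f : Bool) (d : N.divisors) (r : ℕ) :
    PowerSeries.coeff (kcM N α d * r) (cs k z N α (f, d)) =
      (cA N α d : k) ^ 12 * ((z ^ (cB N α d * (N / cD N α d))) ^ r *
        ((PowerSeries.coeff r (baseSeries f) : ℤ) : k)) :=
  coeff_conjS_mul z N _ _ _ _ (kcM_pos N (Nat.dvd_of_mem_divisors d.2) α).ne' r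

theorem kc_coeff_cs_of_not_dvd (α : Cos N) (f : Bool) (d : N.divisors) {n : ℕ}
    (h : ¬ kcM N α d ∣ n) : PowerSeries.coeff n (cs k z N α (f, d)) = 0 :=
  coeff_conjS_of_not_dvd z N _ _ _ _ h

theorem kc_coeff_cs_of_lt (α : Cos N) (f : Bool) (d : N.divisors) {n : ℕ} (h0 : 0 < n)
    (hn : n < kcM N α d) : PowerSeries.coeff n (cs k z N α (f, d)) = 0 :=
  kc_coeff_cs_of_not_dvd N k z α f d (fun h => absurd (Nat.le_of_dvd h0 h) (not_le.2 hn))

theorem kc_coeff_zero_cs (α : Cos N) (f : Bool) (d : N.divisors) :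
    PowerSeries.coeff 0 (cs k z N α (f, d)) =
      (cA N α d : k) ^ 12 * ((PowerSeries.coeff 0 (baseSeries f) : ℤ) : k) := by
  have h := kc_coeff_cs_mul N k z α f d 0
  simpa using h

theorem kc_coeff_M_cs (α : Cos N) (f : Bool) (d : N.divisors) :
    PowerSeries.coeff (kcM N α d) (cs k z N α (f, d)) =
      (cA N α d : k) ^ 12 * (z ^ (cB N α d * (N / cD N α d)) *
        ((PowerSeries.coeff 1 (baseSeries f) : ℤ) : k)) := by
  have h := kc_coeff_cs_mul N k z α f d 1
  simpa using h

variable {N k z}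

theorem kc_natCast_ne_zero (hz : IsPrimitiveRoot z N) {a : ℕ} (ha : a ∣ N) : (a : k) ≠ 0 := by
  have := hz.neZero'
  intro h
  obtain ⟨b, rfl⟩ := ha
  have : ((a * b : ℕ) : k) ≠ 0 := NeZero.ne _
  apply this
  rw [Nat.cast_mul, h, zero_mul]

theorem kc_z_ne_zero (hz : IsPrimitiveRoot z N) : z ≠ 0 := hz.ne_zero (NeZero.ne N)

theorem kc_cA_ne_zero (hz : IsPrimitiveRoot z N) (α : Cos N) (d : N.divisors) :
    (cA N α d : k) ≠ 0 :=
  kc_natCast_ne_zero hz ((cA_dvd N α d).trans (Nat.dvd_of_mem_divisors d.2))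

/-- the conjugates of `E_d` have a nonzero constant coefficient. -/
theorem kc_coeff_zero_cs_true (hz : IsPrimitiveRoot z N) (α : Cos N) (d : N.divisors) :
    PowerSeries.coeff 0 (cs k z N α (true, d)) ≠ 0 := by
  rw [kc_coeff_zero_cs, coeff_zero_baseSeries_true]
  simpa using pow_ne_zero 12 (kc_cA_ne_zero hz α d)

theorem kc_cs_true_ne_zero (hz : IsPrimitiveRoot z N) (α : Cos N) (d : N.divisors) :
    cs k z N α (true, d) ≠ 0 := fun h => by
  have := kc_coeff_zero_cs_true hz α d
  rw [h] at this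
  simp at this

/-- the conjugates of `D_d` have order exactly `a N / d'`. -/
theorem kc_order_cs_false (hz : IsPrimitiveRoot z N) (α : Cos N) (d : N.divisors) :
    (cs k z N α (false, d)).order = kcM N α d := by
  rw [PowerSeries.order_eq_nat]
  constructor
  · rw [kc_coeff_M_cs, coeff_one_baseSeries_false, Int.cast_one, mul_one]
    exact mul_ne_zero (pow_ne_zero 12 (kc_cA_ne_zero hz α d)) (pow_ne_zero _ (kc_z_ne_zero hz))
  · intro i hi
    rcases Nat.eq_zero_or_pos i with rfl | h0
    · rw [kc_coeff_zero_cs, coeff_zero_baseSeries_false]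
      simp
    · exact kc_coeff_cs_of_lt N k z α false d h0 hi

theorem kc_cs_false_ne_zero (hz : IsPrimitiveRoot z N) (α : Cos N) (d : N.divisors) :
    cs k z N α (false, d) ≠ 0 := fun h => by
  have := kc_order_cs_false hz α d
  rw [h, PowerSeries.order_zero] at this
  exact ENat.top_ne_natCast _ this

theorem kc_cs_ne_zero (hz : IsPrimitiveRoot z N) (α : Cos N) (g : Gen N) :
    cs k z N α g ≠ 0 := by
  obtain ⟨f, d⟩ := g
  cases f
  · exact kc_cs_false_ne_zero hz α d
  · exact kc_cs_true_ne_zero hz α d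

theorem kcY_ne_zero (hz : IsPrimitiveRoot z N) (α : Cos N) (g : Gen N) :
    kcY N k z g α ≠ 0 := fun h =>
  kc_cs_ne_zero hz α g ((HahnSeries.ofPowerSeries_injective (Γ := ℤ) (R := k))
    (by rw [map_zero]; exact h))

end series

section base

variable (N : ℕ) [NeZero N] (k : Type) [Field k]

theorem kc_algebraMap_eq_C (c : k) :
    algebraMap k (LaurentSeries k) c = HahnSeries.ofPowerSeries ℤ k (PowerSeries.C c) := by
  rw [HahnSeries.algebraMap_apply']
  rfl

theorem kc_coeff_kcBase_mul (f : Bool) (r : ℕ) :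
    PowerSeries.coeff (N * r) (kcBase N k f) = ((PowerSeries.coeff r (baseSeries f) : ℤ) : k) := by
  unfold kcBase
  have h := coeff_conjS_mul (1 : k) N 1 0 1 (baseSeries f) (by simpa using NeZero.ne N) r
  simpa using h

theorem kc_coeff_kcBase_of_not_dvd (f : Bool) {n : ℕ} (h : ¬ N ∣ n) :
    PowerSeries.coeff n (kcBase N k f) = 0 := by
  unfold kcBase
  exact coeff_conjS_of_not_dvd (1 : k) N 1 0 1 (baseSeries f) (by simpa using h)

theorem kc_constantCoeff_kcBase_true : PowerSeries.constantCoeff (kcBase N k true) = 1 := by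
  have h := kc_coeff_kcBase_mul N k true 0
  rw [coeff_zero_baseSeries_true] at h
  simpa using h

theorem kc_constantCoeff_kcBase_false : PowerSeries.constantCoeff (kcBase N k false) = 0 := by
  have h := kc_coeff_kcBase_mul N k false 0
  rw [coeff_zero_baseSeries_false] at h
  simpa using h

theorem kc_order_kcBase_false : (kcBase N k false).order = N := by
  rw [PowerSeries.order_eq_nat]
  constructor
  · have h := kc_coeff_kcBase_mul N k false 1
    rw [coeff_one_baseSeries_false] at h
    simp only [mul_one, Int.cast_one] at h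
    rw [h]
    exact one_ne_zero
  · intro i hi
    rcases Nat.eq_zero_or_pos i with rfl | h0
    · rw [PowerSeries.coeff_zero_eq_constantCoeff_apply]
      exact kc_constantCoeff_kcBase_false N k
    · exact kc_coeff_kcBase_of_not_dvd N k false
        (fun h => absurd (Nat.le_of_dvd h0 h) (not_le.2 hi))

theorem kc_kcBase_true_ne_zero : kcBase N k true ≠ 0 := fun h => by
  have := kc_constantCoeff_kcBase_true N k
  rw [h] at this
  simp at this

theorem kc_kcBase_false_ne_zero : kcBase N k false ≠ 0 := fun h => by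
  have := kc_order_kcBase_false N k
  rw [h, PowerSeries.order_zero] at this
  exact ENat.top_ne_natCast _ this

theorem kc_ofPS_ne_zero {f : PowerSeries k} (hf : f ≠ 0) :
    HahnSeries.ofPowerSeries ℤ k f ≠ 0 := fun h =>
  hf ((HahnSeries.ofPowerSeries_injective (Γ := ℤ) (R := k)) (by rw [map_zero]; exact h))

theorem kc_kcj_mul_D :
    kcj N k * HahnSeries.ofPowerSeries ℤ k (kcBase N k false) =
      HahnSeries.ofPowerSeries ℤ k (kcBase N k true) := by
  unfold kcj
  exact div_mul_cancel₀ _ (kc_ofPS_ne_zero k (kc_kcBase_false_ne_zero N k))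

/-- `p(j̄) · D̄^n = Σ_{i ≤ n} p_i Ē^i D̄^(n-i)` for `n ≥ deg p`. -/
theorem kc_aeval_kcj_mul_pow (p : Polynomial k) (n : ℕ) (hn : p.natDegree ≤ n) :
    Polynomial.aeval (kcj N k) p * HahnSeries.ofPowerSeries ℤ k (kcBase N k false) ^ n =
      HahnSeries.ofPowerSeries ℤ k
        (∑ i ∈ Finset.range (n + 1),
          PowerSeries.C (p.coeff i) * kcBase N k true ^ i * kcBase N k false ^ (n - i)) := by
  have hp : Polynomial.aeval (kcj N k) p =
      ∑ i ∈ Finset.range (n + 1), algebraMap k (LaurentSeries k) (p.coeff i) * kcj N k ^ i := by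
    rw [Polynomial.aeval_eq_sum_range' (Nat.lt_succ_of_le hn)]
    exact Finset.sum_congr rfl fun i _ => Algebra.smul_def _ _
  rw [hp, Finset.sum_mul, map_sum]
  refine Finset.sum_congr rfl fun i hi => ?_
  have hi' : i ≤ n := Nat.lt_succ_iff.1 (Finset.mem_range.1 hi)
  rw [map_mul, map_mul, map_pow, map_pow, kc_algebraMap_eq_C, ← kc_kcj_mul_D N k]
  rw [show n = i + (n - i) by omega, pow_add, Nat.add_sub_cancel_left]
  ring

/-- the binary form `Σ_{i ≤ n} a_i Ē^i D̄^(n-i)` is nonzero if some `a_i ≠ 0`. -/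
theorem kc_binary_ne_zero (n : ℕ) (a : ℕ → k) (h : ∃ i ≤ n, a i ≠ 0) :
    (∑ i ∈ Finset.range (n + 1),
      PowerSeries.C (a i) * kcBase N k true ^ i * kcBase N k false ^ (n - i)) ≠ 0 := by
  classical
  -- the largest index with nonzero coefficient
  obtain ⟨m, hm, hmax⟩ : ∃ m, (m ≤ n ∧ a m ≠ 0) ∧ ∀ i, i ≤ n → a i ≠ 0 → i ≤ m := by
    obtain ⟨i, hi, hai⟩ := h
    have hne : ((Finset.range (n + 1)).filter fun i => a i ≠ 0).Nonempty :=
      ⟨i, Finset.mem_filter.2 ⟨Finset.mem_range.2 (Nat.lt_succ_of_le hi), hai⟩⟩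
    refine ⟨((Finset.range (n + 1)).filter fun i => a i ≠ 0).max' hne, ?_, ?_⟩
    · have := Finset.max'_mem _ hne
      rw [Finset.mem_filter, Finset.mem_range] at this
      exact ⟨Nat.lt_succ_iff.1 this.1, this.2⟩
    · intro j hj haj
      exact Finset.le_max' _ j (Finset.mem_filter.2 ⟨Finset.mem_range.2 (Nat.lt_succ_of_le hj), haj⟩)
  obtain ⟨hmn, ham⟩ := hm
  -- factor out `D̄^(n-m)`
  have hsum : (∑ i ∈ Finset.range (n + 1),
      PowerSeries.C (a i) * kcBase N k true ^ i * kcBase N k false ^ (n - i)) =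
      kcBase N k false ^ (n - m) * ∑ i ∈ Finset.range (m + 1),
        PowerSeries.C (a i) * kcBase N k true ^ i * kcBase N k false ^ (m - i) := by
    rw [Finset.mul_sum]
    have hsub : Finset.range (m + 1) ⊆ Finset.range (n + 1) :=
      Finset.range_subset_range.2 (Nat.succ_le_succ hmn)
    rw [← Finset.sum_subset hsub]
    · refine Finset.sum_congr rfl fun i hi => ?_
      have hi' : i ≤ m := Nat.lt_succ_iff.1 (Finset.mem_range.1 hi)
      rw [show n - i = (n - m) + (m - i) by omega, pow_add]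
      ring
    · intro i hi hi'
      have hi1 : i ≤ n := Nat.lt_succ_iff.1 (Finset.mem_range.1 hi)
      have hi2 : ¬ i ≤ m := fun h => hi' (Finset.mem_range.2 (Nat.lt_succ_of_le h))
      have : a i = 0 := by
        by_contra hai
        exact hi2 (hmax i hi1 hai)
      rw [this, map_zero, zero_mul, zero_mul]
  rw [hsum]
  refine mul_ne_zero (pow_ne_zero _ (kc_kcBase_false_ne_zero N k)) ?_
  intro h0
  have hc := congrArg PowerSeries.constantCoeff h0
  rw [map_sum, map_zero] at hc
  rw [Finset.sum_eq_single m] at hc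
  · simp only [map_mul, map_pow, PowerSeries.constantCoeff_C, kc_constantCoeff_kcBase_true,
      one_pow, mul_one, Nat.sub_self, pow_zero] at hc
    exact ham hc
  · intro i hi him
    have hi' : i < m := lt_of_le_of_ne (Nat.lt_succ_iff.1 (Finset.mem_range.1 hi)) him
    simp only [map_mul, map_pow, kc_constantCoeff_kcBase_false]
    rw [zero_pow (by omega), mul_zero]
  · intro hm'
    exact absurd (Finset.mem_range.2 (Nat.lt_succ_self m)) hm'

/-- `j̄` is transcendental over `k`. -/
theorem kc_kcj_transcendental : Transcendental k (kcj N k) := by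
  rw [transcendental_iff]
  intro p hp
  by_contra hp0
  have h1 := kc_aeval_kcj_mul_pow N k p p.natDegree le_rfl
  rw [hp, zero_mul] at h1
  have h2 := kc_binary_ne_zero N k p.natDegree (fun i => p.coeff i)
    ⟨p.natDegree, le_rfl, by simpa using hp0⟩
  exact kc_ofPS_ne_zero k h2 h1.symm

end base

end Fermat.Agent.S28
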