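import Fermat.Agent.S28.AC
import Mathlib.FieldTheory.IntermediateField.Adjoin.Algebra
import Mathlib.FieldTheory.RatFunc.AsPolynomial
import Mathlib.RingTheory.PowerSeries.Order

/-!
# S28 K-core: common definitions (characteristic-`ℓ` core)

`k` a field, `z : k` (a primitive `N`-th root of unity), `𝕂 = k((t))`.
* `kcBase N k f` : the level-one series `φ_f(t^N)` (`f = true`: `E₄³`, `f = false`: `Δ`).
* `kcY N k z g α` : the conjugate expansion `cs k z N α g`, as a Laurent series.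
* `kcj N k` : `j̄ = Ē / D̄ ∈ 𝕂`.
* `kcB N k = k(j̄)` (intermediate field of `𝕂 / k`), `kcR N k = k[j̄]` (subalgebra).
* `kcJ`, `kcU`, `kcUinv` : the vectors `J_d = E_d / D_d`, `U_d = D_d / D`, `U_d⁻¹` in `𝕂^Ω`.
* `kcQ` : the `k(j̄)`-subalgebra of `𝕂^Ω` generated by them; `kcQ'` generated by the `J_d`.
* `kcRl`, `kcIl` : (Rank)+(Conj) and (Int) modulo `ℓ`, as Props.
-/

set_option autoImplicit false

open scoped MatrixGroups
open CongruenceSubgroup

noncomputable section

namespace Fermat.Agent.S28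

variable (N : ℕ) [NeZero N] (k : Type) [Field k] (z : k)

/-- the level one series `φ_f(t^N)` over `k` -/
def kcBase (f : Bool) : PowerSeries k := conjS k 1 N 1 0 1 (baseSeries f)

/-- the conjugate expansions over `k`, as Laurent series in `t`. -/
def kcY (g : Gen N) (α : Cos N) : LaurentSeries k :=
  HahnSeries.ofPowerSeries ℤ k (cs k z N α g)

/-- `j̄ = Ē / D̄`. -/
def kcj : LaurentSeries k :=
  HahnSeries.ofPowerSeries ℤ k (kcBase N k true) / HahnSeries.ofPowerSeries ℤ k (kcBase N k false)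

/-- `k(j̄) ⊂ k((t))`. -/
def kcB : IntermediateField k (LaurentSeries k) := IntermediateField.adjoin k {kcj N k}

/-- `k[j̄] ⊂ k((t))`. -/
def kcR : Subalgebra k (LaurentSeries k) := Algebra.adjoin k {kcj N k}

/-- `J_d = E_d / D_d` -/
def kcJ (d : N.divisors) : Cos N → LaurentSeries k :=
  fun α => kcY N k z (true, d) α / kcY N k z (false, d) α

/-- `U_d = D_d / D` -/
def kcU (d : N.divisors) : Cos N → LaurentSeries k :=
  fun α => kcY N k z (false, d) α / HahnSeries.ofPowerSeries ℤ k (kcBase N k false)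

/-- `U_d⁻¹ = D / D_d` -/
def kcUinv (d : N.divisors) : Cos N → LaurentSeries k :=
  fun α => HahnSeries.ofPowerSeries ℤ k (kcBase N k false) / kcY N k z (false, d) α

/-- the `k(j̄)`-algebra generated by the `J_d`, `U_d`, `U_d⁻¹`. -/
def kcQ : Subalgebra ↥(kcB N k) (Cos N → LaurentSeries k) :=
  Algebra.adjoin ↥(kcB N k)
    (Set.range (kcJ N k z) ∪ Set.range (kcU N k z) ∪ Set.range (kcUinv N k z))

/-- the `k(j̄)`-algebra generated by the `J_d`. -/
def kcQ' : Subalgebra ↥(kcB N k) (Cos N → LaurentSeries k) :=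
  Algebra.adjoin ↥(kcB N k) (Set.range (kcJ N k z))

/-- (Rank)+(Conj) modulo `ℓ`. -/
def kcRl [Fintype (Cos N)] : Prop :=
  ∀ (m : ℕ) (P : Fin (Fintype.card (Cos N) + 1) → MvPolynomial (Gen N) k),
    (∀ i, (P i).IsHomogeneous m) →
    ∃ (s : ℕ) (c : Fin (Fintype.card (Cos N) + 1) → MvPolynomial Bool k),
      (∀ i, (c i).IsHomogeneous s) ∧ (∃ i, c i ≠ 0) ∧
      ∀ α, ∑ i, MvPolynomial.aeval (cs k z N α) (MvPolynomial.rename (gen1 N) (c i) * P i) = 0

/-- the integrality relation of `A / B` over `k[j̄]`, homogeneous form, at every conjugate. -/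
def kcIntRel (A B : Gen N) : Prop :=
  ∃ (n : ℕ) (r : Fin n → Fin (n + 1) → k), ∀ α,
    cs k z N α A ^ n * cs k z N α (gen1 N false) ^ n +
      ∑ κ : Fin n, ∑ i : Fin (n + 1), r κ i •
        (cs k z N α (gen1 N true) ^ (i : ℕ) * cs k z N α (gen1 N false) ^ (n - (i : ℕ)) *
          cs k z N α A ^ (κ : ℕ) * cs k z N α B ^ (n - (κ : ℕ))) = 0

/-- (Int) modulo `ℓ`. -/
def kcIl : Prop :=
  ∀ d : N.divisors, kcIntRel N k z (true, d) (false, d) ∧
    kcIntRel N k z (false, d) (gen1 N false) ∧ kcIntRel N k z (gen1 N false) (false, d)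

/-- the formal `j` with coefficients in `A` ;  `jA' ℚ = jq` holds by `rfl` -/
def jA' (A : Type) [CommRing A] : LaurentSeries A :=
  HahnSeries.single (-1 : ℤ) 1 *
    HahnSeries.ofPowerSeries ℤ A (ModularCurve.jNum.map (Int.castRingHom A))

omit [NeZero N] in
theorem kc_neZero_of_mem_divisors (d : N.divisors) : NeZero (d : ℕ) :=
  ⟨(Nat.pos_of_mem_divisors d.2).ne'⟩

/-- `j(q^d)` with coefficients in `A`. -/
def kcjd (A : Type) [CommRing A] (d : N.divisors) : LaurentSeries A :=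
  haveI := kc_neZero_of_mem_divisors N d
  ModularCurve.qExpand A (d : ℕ) (jA' A)

/-- the monomial `∏_d j(q^d)^(e d)` in `A((q))`. -/
def kcMono (A : Type) [CommRing A] (e : N.divisors → ℕ) : LaurentSeries A :=
  ∏ d : N.divisors, kcjd N A d ^ e d

end Fermat.Agent.S28
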