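import Mathlib
import Fermat.Agent.S28.KCore.Defs
import Fermat.Agent.S28.KCore.Basic
import Fermat.Agent.S28.Data
import Fermat.Prelude.Def_ModularCurve_X0ModL

/-!
# S28 K-core, piece T9b: transport of the independence to `(ZMod ℓ)((q))`

The ring homomorphism `θ : (ZMod ℓ)((q)) → k((t))`, `q ↦ t^N`, sends `j` to `j̄` and the
monomials in the `j(q^d)` to the monomials in the `J_d(α₀)`.
-/

set_option autoImplicit false
set_option linter.unusedSectionVars false

open ModularCurve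
open scoped MatrixGroups
open CongruenceSubgroup

noncomputable section

namespace Fermat.Agent.S28

/-- `j · Δ = E₄³` as Laurent series over any ring. -/
theorem kcT9b_jA'_mul (A : Type) [CommRing A] :
    jA' A * HahnSeries.ofPowerSeries ℤ A ((baseSeries false).map (Int.castRingHom A))
      = HahnSeries.ofPowerSeries ℤ A ((baseSeries true).map (Int.castRingHom A)) := by
  have h : jNum * dedekindEtaUnit = eisenstein4 ^ 3 := by
    rw [jNum, mul_assoc, mul_comm dedekindEtaUnitInv, dedekindEtaUnit_mul_inv, mul_one]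
  have h2 : baseSeries true = jNum * dedekindEtaUnit := h.symm
  have h3 : baseSeries false = PowerSeries.X * dedekindEtaUnit := rfl
  rw [h2, h3, jA', map_mul, map_mul, PowerSeries.map_X, map_mul, map_mul,
    HahnSeries.ofPowerSeries_X]
  have h4 : (HahnSeries.single (-1 : ℤ) (1 : A)) * HahnSeries.single (1 : ℤ) (1 : A) = 1 := by
    rw [HahnSeries.single_mul_single]
    simp
  calc HahnSeries.single (-1 : ℤ) (1 : A) *
        (HahnSeries.ofPowerSeries ℤ A) ((PowerSeries.map (Int.castRingHom A)) jNum) *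
        (HahnSeries.single (1 : ℤ) (1 : A) *
          (HahnSeries.ofPowerSeries ℤ A) ((PowerSeries.map (Int.castRingHom A)) dedekindEtaUnit))
      = (HahnSeries.single (-1 : ℤ) (1 : A) * HahnSeries.single (1 : ℤ) (1 : A)) *
        ((HahnSeries.ofPowerSeries ℤ A) ((PowerSeries.map (Int.castRingHom A)) jNum) *
          (HahnSeries.ofPowerSeries ℤ A) ((PowerSeries.map (Int.castRingHom A)) dedekindEtaUnit)) := by
        ring
    _ = _ := by rw [h4, one_mul]

variable (N : ℕ) [NeZero N] (k : Type) [Field k] (z : k)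

/-- The expansion `conjS k z N a 0 1 φ` is `a^12 φ(t^(a N))`. -/
theorem kcT9b_ofPS_conjS (a : ℕ) [NeZero (a * N)] (φ : PowerSeries ℤ) :
    HahnSeries.ofPowerSeries ℤ k (conjS k z N a 0 1 φ)
      = HahnSeries.C ((a : k) ^ 12) *
        qExpand k (a * N) (HahnSeries.ofPowerSeries ℤ k (φ.map (Int.castRingHom k))) := by
  have hne : a * N / 1 ≠ 0 := by
    rw [Nat.div_one]
    exact NeZero.ne _
  ext m
  rw [HahnSeries.C_mul_eq_smul, HahnSeries.coeff_smul, smul_eq_mul]
  rcases lt_or_ge m 0 with hm | hm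
  · rw [ofPowerSeries_coeff_of_neg _ hm]
    by_cases hdvd : ((a * N : ℕ) : ℤ) ∣ m
    · obtain ⟨r, rfl⟩ := hdvd
      rw [qExpand_coeff_mul]
      have hr : r < 0 := by
        by_contra hr
        have : (0 : ℤ) ≤ ((a * N : ℕ) : ℤ) * r := mul_nonneg (by positivity) (not_lt.mp hr)
        omega
      rw [ofPowerSeries_coeff_of_neg _ hr, mul_zero]
    · rw [qExpand_coeff_of_not_dvd _ _ hdvd, mul_zero]
  · lift m to ℕ using hm
    rw [HahnSeries.ofPowerSeries_apply_coeff]
    by_cases hdvd : (a * N) ∣ m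
    · obtain ⟨r, rfl⟩ := hdvd
      have h1 := coeff_conjS_mul z N a 0 1 φ hne r
      rw [Nat.div_one] at h1
      rw [h1]
      have h2 : (((a * N * r : ℕ) : ℤ)) = ((a * N : ℕ) : ℤ) * (r : ℤ) := by push_cast; ring
      rw [h2, qExpand_coeff_mul, HahnSeries.ofPowerSeries_apply_coeff, PowerSeries.coeff_map]
      simp
    · have h1 := coeff_conjS_of_not_dvd z N a 0 1 φ (n := m) (by rw [Nat.div_one]; exact hdvd)
      rw [h1, qExpand_coeff_of_not_dvd, mul_zero]
      intro h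
      exact hdvd (Int.natCast_dvd_natCast.mp h)

/-- `Ē` and `D̄` are `E₄³(t^N)` and `Δ(t^N)`. -/
theorem kcT9b_ofPS_kcBase (f : Bool) :
    HahnSeries.ofPowerSeries ℤ k (kcBase N k f)
      = qExpand k N (HahnSeries.ofPowerSeries ℤ k ((baseSeries f).map (Int.castRingHom k))) := by
  have : NeZero (1 * N) := ⟨by rw [one_mul]; exact NeZero.ne N⟩
  have h := kcT9b_ofPS_conjS N k (1 : k) 1 (baseSeries f)
  rw [kcBase, h]
  simp only [Nat.cast_one, one_pow, map_one, one_mul]

omit [NeZero N] in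
theorem kcT9b_ofPS_base_false_ne_zero :
    HahnSeries.ofPowerSeries ℤ k ((baseSeries false).map (Int.castRingHom k)) ≠ 0 := by
  refine kc_ofPS_ne_zero k fun h => ?_
  have h1 := congrArg (PowerSeries.coeff 1) h
  rw [PowerSeries.coeff_map, coeff_one_baseSeries_false] at h1
  simp at h1

/-- `j̄ = j(t^N)`. -/
theorem kcT9b_kcj : kcj N k = qExpand k N (jA' k) := by
  have h0 := kcT9b_ofPS_base_false_ne_zero k
  rw [kcj, kcT9b_ofPS_kcBase, kcT9b_ofPS_kcBase, ← map_div₀, ← kcT9b_jA'_mul k,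
    mul_div_cancel_right₀ _ h0]

/-- `J_d(α₀) = j(t^(d N))`. -/
theorem kcT9b_kcJ (hz : IsPrimitiveRoot z N) (d : N.divisors) :
    kcJ N k z d (cos0 N) =
      (haveI := kc_neZero_of_mem_divisors N d; qExpand k N (qExpand k (d : ℕ) (jA' k))) := by
  have hdN : (d : ℕ) ∣ N := Nat.dvd_of_mem_divisors d.2
  have := kc_neZero_of_mem_divisors N d
  have : NeZero ((d : ℕ) * N) := ⟨Nat.mul_ne_zero (NeZero.ne _) (NeZero.ne N)⟩
  have h0 := kcT9b_ofPS_base_false_ne_zero k
  have hd0 : HahnSeries.C (((d : ℕ) : k) ^ 12) ≠ (0 : LaurentSeries k) := by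
    intro h
    have h1 := HahnSeries.C_injective (Γ := ℤ) (R := k) (h.trans (map_zero _).symm)
    exact pow_ne_zero 12 (kc_natCast_ne_zero hz hdN) h1
  have hcs : ∀ f : Bool, kcY N k z (f, d) (cos0 N)
      = HahnSeries.C (((d : ℕ) : k) ^ 12) *
        qExpand k ((d : ℕ) * N)
          (HahnSeries.ofPowerSeries ℤ k ((baseSeries f).map (Int.castRingHom k))) := by
    intro f
    rw [kcY, kc_cs_eq, cA_cos0 N hdN, cB_cos0 N hdN, cD_cos0 N hdN]
    exact kcT9b_ofPS_conjS N k z (d : ℕ) (baseSeries f)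
  rw [kcJ, hcs, hcs, mul_div_mul_left _ _ hd0, ← map_div₀, ← kcT9b_jA'_mul k,
    mul_div_cancel_right₀ _ h0, qExpand_qExpand]
  exact qExpand_congr (mul_comm (d : ℕ) N) _

variable (ℓ : ℕ) [Fact ℓ.Prime] [CharP k ℓ]

/-- The transport `θ : (ZMod ℓ)((q)) → k((t))`, `q ↦ t^N`. -/
def kcT9b_θ : LaurentSeries (ZMod ℓ) →+* LaurentSeries k :=
  (qExpand k N).comp (coeffMap (ZMod.castHom (dvd_refl ℓ) k))

theorem kcT9b_θ_jA' : kcT9b_θ N k ℓ (jA' (ZMod ℓ)) = kcj N k := by
  rw [kcT9b_kcj]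
  show qExpand k N (coeffMap _ (jqModC (ZMod ℓ))) = _
  rw [coeffMap_jqModC]
  rfl

theorem kcT9b_θ_mono (hz : IsPrimitiveRoot z N) (e : N.divisors → ℕ) :
    kcT9b_θ N k ℓ ((kcMono N ℤ e).map (Int.castRingHom (ZMod ℓ)))
      = ∏ d : N.divisors, (kcJ N k z d (cos0 N)) ^ (e d) := by
  have h1 : (kcMono N ℤ e).map (Int.castRingHom (ZMod ℓ))
      = coeffMap (Int.castRingHom (ZMod ℓ)) (kcMono N ℤ e) := rfl
  rw [h1, kcMono, map_prod, map_prod]
  refine Finset.prod_congr rfl fun d _ => ?_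
  rw [map_pow, map_pow, kcT9b_kcJ N k z hz d]
  congr 1
  have := kc_neZero_of_mem_divisors N d
  show qExpand k N (coeffMap _ (coeffMap _ (qExpand ℤ (d : ℕ) (jqModC ℤ)))) = _
  rw [coeffMap_qExpand, coeffMap_qExpand, coeffMap_jqModC, coeffMap_jqModC]
  rfl

theorem kcT9b_θ_aeval (c : Polynomial (ZMod ℓ)) :
    kcT9b_θ N k ℓ (Polynomial.aeval (jA' (ZMod ℓ)) c)
      = Polynomial.aeval (kcj N k) (c.map (ZMod.castHom (dvd_refl ℓ) k)) := by
  rw [Polynomial.aeval_def, Polynomial.aeval_def, Polynomial.hom_eval₂, Polynomial.eval₂_map,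
    kcT9b_θ_jA']
  congr 1
  exact Subsingleton.elim _ _

/-- T9b -/
theorem kc_hind (hz : IsPrimitiveRoot z N) (n : ℕ)
    (e : Fin n → (N.divisors → ℕ))
    (hli : LinearIndependent ↥(kcB N k)
        (fun i => ∏ d : N.divisors, (kcJ N k z d (cos0 N)) ^ (e i d))) :
    ∀ c : Fin n → Polynomial (ZMod ℓ),
      ∑ i, Polynomial.aeval (jA' (ZMod ℓ)) (c i) *
        (kcMono N ℤ (e i)).map (Int.castRingHom (ZMod ℓ)) = 0 → ∀ i, c i = 0 := by
  intro c hc i
  have hmem : kcj N k ∈ kcB N k := IntermediateField.mem_adjoin_simple_self k _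
  let jB : ↥(kcB N k) := ⟨kcj N k, hmem⟩
  have hb : ∀ p : Polynomial k,
      ((Polynomial.aeval jB p : ↥(kcB N k)) : LaurentSeries k) = Polynomial.aeval (kcj N k) p :=
    fun p => (Polynomial.aeval_algHom_apply (kcB N k).val jB p).symm
  have h1 := congrArg (kcT9b_θ N k ℓ) hc
  rw [map_sum, map_zero] at h1
  simp only [map_mul, kcT9b_θ_aeval, kcT9b_θ_mono N k z ℓ hz] at h1
  rw [Fintype.linearIndependent_iff] at hli
  have h2 := hli (fun i => Polynomial.aeval jB ((c i).map (ZMod.castHom (dvd_refl ℓ) k))) (by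
    rw [← h1]
    refine Finset.sum_congr rfl fun i _ => ?_
    rw [← hb]
    rfl) i
  have h3 : Polynomial.aeval (kcj N k) ((c i).map (ZMod.castHom (dvd_refl ℓ) k)) = 0 := by
    rw [← hb, h2]
    rfl
  have h4 := (transcendental_iff.mp (kc_kcj_transcendental N k)) _ h3
  exact (Polynomial.map_eq_zero_iff (RingHom.injective _)).mp h4

end Fermat.Agent.S28
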