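import Fermat.Agent.S28.KCore.Balanced
import Fermat.Agent.S28.Gram

/-!
# S28 K-core, T8b + T9: the only idempotents of `Q` are `0, 1`; the `ψ` monomials in the `J_d(α₀)`
are independent over `k(j̄)`.  (`_of` versions: from `hdim` (T5) and integrality (T7).)
-/

set_option autoImplicit false
set_option linter.unusedSectionVars false

open scoped MatrixGroups
open CongruenceSubgroup

noncomputable section

namespace Fermat.Agent.S28

section

variable {N : ℕ} [NeZero N] {k : Type} [Field k] {z : k} [Fintype (Cos N)] [DecidableEq (Cos N)]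

/-- T8b, from `hdim` and integrality. -/
theorem kcT8_hid_of (hz : IsPrimitiveRoot z N) (h4 : AC4 N)
    (hdim : ∀ y : Fin (Fintype.card (Cos N) + 1) → (Cos N → LaurentSeries k),
      (∀ i, y i ∈ kcQ N k z) → ¬ LinearIndependent ↥(kcB N k) y)
    (hint : ∀ (d : N.divisors) (α : Cos N),
      IsIntegral ↥(kcR N k) (kcU N k z d α) ∧ IsIntegral ↥(kcR N k) (kcUinv N k z d α))
    (S : Finset (Cos N)) (e : Cos N → LaurentSeries k) (he : e ∈ kcQ N k z)
    (h1 : ∀ α ∈ S, e α = 1) (h0 : ∀ α, α ∉ S → e α = 0) : S = ∅ ∨ S = Finset.univ := by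
  have hN : 0 < N := Nat.pos_of_ne_zero (NeZero.ne N)
  refine balanced_subset N hN (fun α => cA N α N) (fun α => cA_dvd N α N) (cos0 N)
    (fun α => cA_eq_self_iff N α) ?_ S ?_
  · intro d hd
    have := kcT8_balanced_of hz h4 hdim hint Finset.univ 1 (kcQ N k z).one_mem
      (fun _ _ => rfl) (fun α hα => absurd (Finset.mem_univ α) hα) d hd
    exact this
  · intro d hd
    exact kcT8_balanced_of hz h4 hdim hint S e he h1 h0 d hd

/-- the projection at any `α` is injective on `Q`. -/
theorem kcT9_proj_injective (hz : IsPrimitiveRoot z N) (h4 : AC4 N)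
    (hdim : ∀ y : Fin (Fintype.card (Cos N) + 1) → (Cos N → LaurentSeries k),
      (∀ i, y i ∈ kcQ N k z) → ¬ LinearIndependent ↥(kcB N k) y)
    (hint : ∀ (d : N.divisors) (α : Cos N),
      IsIntegral ↥(kcR N k) (kcU N k z d α) ∧ IsIntegral ↥(kcR N k) (kcUinv N k z d α))
    (x : Cos N → LaurentSeries k) (hx : x ∈ kcQ N k z) (α : Cos N) (hxα : x α = 0) : x = 0 := by
  refine proj_injective_of_idempotents (kcQ N k z) hdim (fun S hS => ?_) x hx α hxα
  refine kcT8_hid_of hz h4 hdim hint S _ hS (fun α hα => ?_) (fun α hα => ?_)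
  · simp [hα]
  · simp [hα]

/-- T9, from `hdim` and integrality. -/
theorem kcT9_hind_k_of (hz : IsPrimitiveRoot z N) (h4 : AC4 N)
    (hdim : ∀ y : Fin (Fintype.card (Cos N) + 1) → (Cos N → LaurentSeries k),
      (∀ i, y i ∈ kcQ N k z) → ¬ LinearIndependent ↥(kcB N k) y)
    (hint : ∀ (d : N.divisors) (α : Cos N),
      IsIntegral ↥(kcR N k) (kcU N k z d α) ∧ IsIntegral ↥(kcR N k) (kcUinv N k z d α)) :
    ∃ e : Fin (Fintype.card (Cos N)) → (N.divisors → ℕ),
      LinearIndependent ↥(kcB N k)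
        (fun i => ∏ d : N.divisors, (kcJ N k z d (cos0 N)) ^ (e i d)) := by
  classical
  obtain ⟨y, hy, hli⟩ := exists_indep_of_sep (B := ↥(kcB N k)) (Set.range (kcJ N k z))
    (fun α β hne => kc_hsep N k z hz h4 α β hne)
  -- each `y i` is a monomial
  have hmono : ∀ i, ∃ a : N.divisors →₀ ℕ, y i = a.prod fun d n => kcJ N k z d ^ n :=
    fun i => Submonoid.mem_closure_range_iff.1 (hy i)
  choose a ha using hmono
  have hyQ : ∀ i, y i ∈ kcQ N k z := by
    intro i
    have h1 : Submonoid.closure (Set.range (kcJ N k z)) ≤ (kcQ N k z).toSubmonoid := by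
      rw [Submonoid.closure_le]
      rintro _ ⟨d, rfl⟩
      exact kcT8_kcJ_mem d
    exact h1 (hy i)
  refine ⟨fun i d => a i d, ?_⟩
  have heval : ∀ i, (∏ d : N.divisors, (kcJ N k z d (cos0 N)) ^ (a i d)) = y i (cos0 N) := by
    intro i
    rw [ha i, Finsupp.prod_fintype _ _ (fun d => pow_zero _), Finset.prod_apply]
    rfl
  simp only [heval]
  rw [Fintype.linearIndependent_iff]
  intro g hg
  have hx : (∑ i, g i • y i) ∈ kcQ N k z :=
    Subalgebra.sum_mem _ fun i _ => (kcQ N k z).smul_mem (hyQ i) (g i)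
  have hx0 : (∑ i, g i • y i) (cos0 N) = 0 := by
    rw [Finset.sum_apply]
    exact hg
  have := kcT9_proj_injective hz h4 hdim hint _ hx (cos0 N) hx0
  exact (Fintype.linearIndependent_iff.1 hli) g this

end

end Fermat.Agent.S28
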