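import Fermat.Agent.S28.KCore.Basic

/-!
# S28 K-core, piece T7: `U_d(α)` and `U_d(α)⁻¹` are integral over `k[j̄]`

Divide the homogeneous integrality relation `kcIntRel` by `B^n D̄^n`.
-/

set_option autoImplicit false

noncomputable section

namespace Fermat.Agent.S28

/-- The abstract step: a homogeneous relation gives integrality of `A / B` over `k[E / D]`. -/
theorem kcT7_isIntegral_of_rel {k K : Type*} [Field k] [Field K] [Algebra k K]
    (E D A B : K) (hD : D ≠ 0) (hB : B ≠ 0) (n : ℕ) (r : Fin n → Fin (n + 1) → k)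
    (h : A ^ n * D ^ n + ∑ κ : Fin n, ∑ i : Fin (n + 1), algebraMap k K (r κ i) *
      (E ^ (i : ℕ) * D ^ (n - (i : ℕ)) * A ^ (κ : ℕ) * B ^ (n - (κ : ℕ))) = 0) :
    IsIntegral ↥(Algebra.adjoin k {E / D}) (A / B) := by
  set R := Algebra.adjoin k {E / D} with hR
  set jR : R := ⟨E / D, Algebra.subset_adjoin (Set.mem_singleton _)⟩ with hjR
  set c : Fin n → R := fun κ => ∑ i : Fin (n + 1), algebraMap k R (r κ i) * jR ^ (i : ℕ) with hc
  have hcval : ∀ κ, ((c κ : R) : K) =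
      ∑ i : Fin (n + 1), algebraMap k K (r κ i) * (E / D) ^ (i : ℕ) := by
    intro κ
    simp only [hc, AddSubmonoidClass.coe_finsetSum, MulMemClass.coe_mul,
      SubmonoidClass.coe_pow]
    rfl
  refine ⟨Polynomial.X ^ n + ∑ κ : Fin n, Polynomial.C (c κ) * Polynomial.X ^ (κ : ℕ),
    Polynomial.monic_X_pow_add (Polynomial.degree_sum_fin_lt c), ?_⟩
  rw [Polynomial.eval₂_add, Polynomial.eval₂_pow, Polynomial.eval₂_X, Polynomial.eval₂_finsetSum]
  simp only [Polynomial.eval₂_mul, Polynomial.eval₂_C, Polynomial.eval₂_pow, Polynomial.eval₂_X]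
  change (A / B) ^ n + ∑ κ : Fin n, ((c κ : R) : K) * (A / B) ^ (κ : ℕ) = 0
  simp only [hcval]
  -- now a field identity
  have hBn : B ^ n ≠ 0 := pow_ne_zero _ hB
  have hDn : D ^ n ≠ 0 := pow_ne_zero _ hD
  have key : (A / B) ^ n + ∑ κ : Fin n,
      (∑ i : Fin (n + 1), algebraMap k K (r κ i) * (E / D) ^ (i : ℕ)) * (A / B) ^ (κ : ℕ) =
      (A ^ n * D ^ n + ∑ κ : Fin n, ∑ i : Fin (n + 1), algebraMap k K (r κ i) *
        (E ^ (i : ℕ) * D ^ (n - (i : ℕ)) * A ^ (κ : ℕ) * B ^ (n - (κ : ℕ)))) / (B ^ n * D ^ n) := by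
    rw [add_div, Finset.sum_div]
    congr 1
    · rw [div_pow]
      field_simp
    · refine Finset.sum_congr rfl fun κ _ => ?_
      rw [Finset.sum_mul, Finset.sum_div]
      refine Finset.sum_congr rfl fun i _ => ?_
      have hi : (i : ℕ) ≤ n := Nat.lt_succ_iff.1 i.2
      have hκ : (κ : ℕ) ≤ n := κ.2.le
      have e1 : D ^ n = D ^ (i : ℕ) * D ^ (n - (i : ℕ)) := by
        rw [← pow_add, Nat.add_sub_cancel' hi]
      have e2 : B ^ n = B ^ (κ : ℕ) * B ^ (n - (κ : ℕ)) := by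
        rw [← pow_add, Nat.add_sub_cancel' hκ]
      have hDi : D ^ (i : ℕ) ≠ 0 := pow_ne_zero _ hD
      have hDni : D ^ (n - (i : ℕ)) ≠ 0 := pow_ne_zero _ hD
      have hBκ : B ^ (κ : ℕ) ≠ 0 := pow_ne_zero _ hB
      have hBnκ : B ^ (n - (κ : ℕ)) ≠ 0 := pow_ne_zero _ hB
      rw [e1, e2, div_pow, div_pow]
      field_simp
  rw [key, h, zero_div]

section Main

variable (N : ℕ) [NeZero N] (k : Type) [Field k] (z : k)

/-- transport of `kcIntRel` to Laurent series. -/
theorem kcT7_rel_laurent (A B : Gen N) (h : kcIntRel N k z A B) :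
    ∃ (n : ℕ) (r : Fin n → Fin (n + 1) → k), ∀ α,
      kcY N k z A α ^ n * HahnSeries.ofPowerSeries ℤ k (kcBase N k false) ^ n +
        ∑ κ : Fin n, ∑ i : Fin (n + 1), algebraMap k (LaurentSeries k) (r κ i) *
          (HahnSeries.ofPowerSeries ℤ k (kcBase N k true) ^ (i : ℕ) *
            HahnSeries.ofPowerSeries ℤ k (kcBase N k false) ^ (n - (i : ℕ)) *
            kcY N k z A α ^ (κ : ℕ) * kcY N k z B α ^ (n - (κ : ℕ))) = 0 := by
  obtain ⟨n, r, hr⟩ := h
  refine ⟨n, r, fun α => ?_⟩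
  have h1 := congrArg (HahnSeries.ofPowerSeries ℤ k) (hr α)
  rw [kc_cs_gen1, kc_cs_gen1] at h1
  simp only [map_add, map_mul, map_pow, map_sum, map_zero, PowerSeries.smul_eq_C_mul] at h1
  simp only [kc_algebraMap_eq_C]
  exact h1

/-- **T7** -/
theorem kc_integral [Fintype (Cos N)] [DecidableEq (Cos N)] (hz : IsPrimitiveRoot z N)
    (hI : kcIl N k z) (d : N.divisors) (α : Cos N) :
    IsIntegral ↥(kcR N k) (kcU N k z d α) ∧ IsIntegral ↥(kcR N k) (kcUinv N k z d α) := by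
  have hD : HahnSeries.ofPowerSeries ℤ k (kcBase N k false) ≠ 0 :=
    kc_ofPS_ne_zero k (kc_kcBase_false_ne_zero N k)
  have hYD : kcY N k z (gen1 N false) α = HahnSeries.ofPowerSeries ℤ k (kcBase N k false) := by
    unfold kcY
    rw [kc_cs_gen1]
  obtain ⟨-, h2, h3⟩ := hI d
  constructor
  · obtain ⟨n, r, hr⟩ := kcT7_rel_laurent N k z _ _ h2
    have := kcT7_isIntegral_of_rel (k := k) (HahnSeries.ofPowerSeries ℤ k (kcBase N k true))
      (HahnSeries.ofPowerSeries ℤ k (kcBase N k false)) (kcY N k z (false, d) α)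
      (kcY N k z (gen1 N false) α) hD (kcY_ne_zero hz α _) n r (hr α)
    rw [hYD] at this
    exact this
  · obtain ⟨n, r, hr⟩ := kcT7_rel_laurent N k z _ _ h3
    have := kcT7_isIntegral_of_rel (k := k) (HahnSeries.ofPowerSeries ℤ k (kcBase N k true))
      (HahnSeries.ofPowerSeries ℤ k (kcBase N k false)) (kcY N k z (gen1 N false) α)
      (kcY N k z (false, d) α) hD (kcY_ne_zero hz α _) n r (hr α)
    rw [hYD] at this
    exact this

end Main

end Fermat.Agent.S28
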