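import Fermat.Agent.S28.KCore.RedAux

/-!
# S28 K-core, piece T3: (Int) modulo the maximal ideal of `V`
-/

set_option autoImplicit false

open scoped MatrixGroups
open CongruenceSubgroup

noncomputable section

namespace Fermat.Agent.S28

/-- the polynomial expressing the integrality relation -/
def kcT3_poly {R : Type*} [CommRing R] (N : ℕ) [NeZero N] (A B : Gen N) (n : ℕ)
    (r : Fin n → Fin (n + 1) → R) : MvPolynomial (Gen N) R :=
  MvPolynomial.X A ^ n * MvPolynomial.X (gen1 N false) ^ n +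
    ∑ κ : Fin n, ∑ i : Fin (n + 1), MvPolynomial.C (r κ i) *
      (MvPolynomial.X (gen1 N true) ^ (i : ℕ) * MvPolynomial.X (gen1 N false) ^ (n - (i : ℕ)) *
        MvPolynomial.X A ^ (κ : ℕ) * MvPolynomial.X B ^ (n - (κ : ℕ)))

theorem kcT3_poly_isHomogeneous {R : Type*} [CommRing R] (N : ℕ) [NeZero N] (A B : Gen N)
    (n : ℕ) (r : Fin n → Fin (n + 1) → R) : (kcT3_poly N A B n r).IsHomogeneous (n + n) := by
  unfold kcT3_poly
  have hX : ∀ (g : Gen N) (e : ℕ), (MvPolynomial.X g ^ e : MvPolynomial (Gen N) R).IsHomogeneous e :=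
    fun g e ↦ by simpa using (MvPolynomial.isHomogeneous_X R g).pow e
  refine ((hX A n).mul (hX _ n)).add ?_
  refine MvPolynomial.IsHomogeneous.sum _ _ _ fun κ _ ↦ ?_
  refine MvPolynomial.IsHomogeneous.sum _ _ _ fun i _ ↦ ?_
  have h := (((hX (gen1 N true) (i : ℕ)).mul (hX (gen1 N false) (n - (i : ℕ)))).mul
    (hX A (κ : ℕ))).mul (hX B (n - (κ : ℕ)))
  have hi : (i : ℕ) ≤ n := Nat.lt_succ_iff.mp i.2
  have hκ : (κ : ℕ) ≤ n := κ.2.le
  have hdeg : (i : ℕ) + (n - (i : ℕ)) + (κ : ℕ) + (n - (κ : ℕ)) = n + n := by omega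
  rw [hdeg] at h
  exact h.C_mul _

theorem kcT3_map {R S : Type*} [CommRing R] [CommRing S] (φ : R →+* S) (N : ℕ) [NeZero N]
    (A B : Gen N) (n : ℕ) (r : Fin n → Fin (n + 1) → R) :
    MvPolynomial.map φ (kcT3_poly N A B n r) = kcT3_poly N A B n (fun κ i ↦ φ (r κ i)) := by
  simp [kcT3_poly]

theorem kcT3_aeval {R : Type*} [CommRing R] (N : ℕ) [NeZero N] (A B : Gen N) (n : ℕ)
    (r : Fin n → Fin (n + 1) → R) (X : Gen N → PowerSeries R) :
    MvPolynomial.aeval X (kcT3_poly N A B n r) =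
      X A ^ n * X (gen1 N false) ^ n +
        ∑ κ : Fin n, ∑ i : Fin (n + 1), r κ i •
          (X (gen1 N true) ^ (i : ℕ) * X (gen1 N false) ^ (n - (i : ℕ)) *
            X A ^ (κ : ℕ) * X B ^ (n - (κ : ℕ))) := by
  simp [kcT3_poly, Algebra.smul_def]

theorem kcT3_intRel (N : ℕ) [NeZero N] (V : ValuationSubring ℂ) (hN : ((N : ℂ))⁻¹ ∈ V) (ζ : V)
    (hζ : (ζ : ℂ) = zetaC N) (h1 : AC1 N) (A B : Gen N) (h : IntRel N A B) :
    kcIntRel N (IsLocalRing.ResidueField V) (IsLocalRing.residue V ζ) A B := by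
  obtain ⟨n, r, hr, hrel⟩ := h
  set ρ : V →+* IsLocalRing.ResidueField V := IsLocalRing.residue V with hρ
  set ι : V →+* ℂ := V.subtype with hι
  have hιi : Function.Injective ι := Subtype.val_injective
  let rV : Fin n → Fin (n + 1) → V := fun κ i ↦ ⟨r κ i, hr κ i V hN⟩
  have hζ' : ι ζ = zetaC N := hζ
  have hmap : MvPolynomial.map ι (kcT3_poly N A B n rV) = kcT3_poly N A B n r := by
    rw [kcT3_map]; rfl
  have h0 : MvPolynomial.aeval (csC N (cos0 N)) (MvPolynomial.map ι (kcT3_poly N A B n rV)) = 0 := by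
    rw [hmap, kcT3_aeval]; exact hrel
  have hα : ∀ α, MvPolynomial.aeval (cs V ζ N α) (kcT3_poly N A B n rV) = 0 := by
    intro α
    have h := h1 (n + n) _ ((kcT3_poly_isHomogeneous N A B n rV).map ι) h0 α
    have h' := kcRed_map_aeval_cs ι ζ N α (kcT3_poly N A B n rV)
    rw [hζ'] at h'
    rw [← h'] at h
    exact (PowerSeries.map_injective ι hιi) (by rw [h, map_zero])
  refine ⟨n, fun κ i ↦ ρ (rV κ i), fun α ↦ ?_⟩
  have h := congrArg (PowerSeries.map ρ) (hα α)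
  rw [kcRed_map_aeval_cs, map_zero, kcT3_map, kcT3_aeval] at h
  exact h

/-- T3 -/
theorem kc_Il_of_AC (N : ℕ) [NeZero N] (V : ValuationSubring ℂ) (hN : ((N : ℂ))⁻¹ ∈ V) (ζ : V)
    (hζ : (ζ : ℂ) = zetaC N) (h1 : AC1 N) (h3 : AC3 N) :
    kcIl N (IsLocalRing.ResidueField V) (IsLocalRing.residue V ζ) := fun d ↦
  ⟨kcT3_intRel N V hN ζ hζ h1 _ _ (h3 d).1, kcT3_intRel N V hN ζ hζ h1 _ _ (h3 d).2.1,
    kcT3_intRel N V hN ζ hζ h1 _ _ (h3 d).2.2⟩

end Fermat.Agent.S28
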