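import Fermat.Agent.S28.KCore.RedAux

/-!
# S28 K-core, piece T2: (Rank)+(Conj) modulo the maximal ideal of `V`
-/

set_option autoImplicit false

open scoped MatrixGroups
open CongruenceSubgroup

noncomputable section

namespace Fermat.Agent.S28

/-- T2 -/
theorem kc_Rl_of_AC (N : ℕ) [NeZero N] [Fintype (Cos N)] (V : ValuationSubring ℂ) (ζ : V)
    (hζ : (ζ : ℂ) = zetaC N) (h1 : AC1 N) (h2 : AC2 N) :
    kcRl N (IsLocalRing.ResidueField V) (IsLocalRing.residue V ζ) := by
  classical
  intro m P hP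
  set ρ : V →+* IsLocalRing.ResidueField V := IsLocalRing.residue V with hρ
  have hρs : Function.Surjective ρ := IsLocalRing.residue_surjective
  set ι : V →+* ℂ := V.subtype with hι
  have hιi : Function.Injective ι := Subtype.val_injective
  -- lift the `P i`
  choose P' hP'h hP'm using fun i ↦ kcRed_exists_lift ρ hρs (P i) (hP i)
  -- apply AC2
  have hcard : Nat.card (Cos N) + 1 = Fintype.card (Cos N) + 1 := by
    rw [Nat.card_eq_fintype_card]
  obtain ⟨s, c, hch, ⟨i₀, hi₀⟩, hc⟩ := h2 m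
    (fun i ↦ MvPolynomial.map ι (P' (Fin.cast hcard i)))
    (fun i ↦ (hP'h _).map ι)
  -- scale the coefficients into `V`
  obtain ⟨μ₀, hμ₀⟩ := MvPolynomial.ne_zero_iff.mp hi₀
  set U : Finset (Bool →₀ ℕ) := Finset.univ.biUnion fun i ↦ (c i).support with hU
  let x : Fin (Nat.card (Cos N) + 1) × ↥U → ℂ := fun p ↦ (c p.1).coeff p.2
  have hμ₀U : μ₀ ∈ U := by
    rw [hU, Finset.mem_biUnion]
    exact ⟨i₀, Finset.mem_univ _, MvPolynomial.mem_support_iff.mpr hμ₀⟩
  have hx : x ≠ 0 := by
    intro h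
    exact hμ₀ (congrFun h (i₀, ⟨μ₀, hμ₀U⟩))
  obtain ⟨lam, hlam0, hlamV, ⟨⟨i₁, μ₁⟩, hu0, hu1, hu2⟩⟩ := kcRed_exists_scale V x hx
  -- the scaled binary forms over `V`
  let cV : Fin (Nat.card (Cos N) + 1) → MvPolynomial Bool V := fun i ↦
    ∑ μ : ↥U, MvPolynomial.monomial (μ : Bool →₀ ℕ) (⟨lam * (c i).coeff μ, hlamV (i, μ)⟩ : V)
  have hcVmap : ∀ i, MvPolynomial.map ι (cV i) = lam • c i := by
    intro i
    simp only [cV, map_sum, MvPolynomial.map_monomial]
    ext ν
    simp only [MvPolynomial.coeff_sum, MvPolynomial.coeff_monomial, MvPolynomial.coeff_smul,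
      smul_eq_mul]
    by_cases hν : ν ∈ U
    · rw [Finset.sum_eq_single (⟨ν, hν⟩ : ↥U)]
      · simp [hι]
      · intro b _ hb
        rw [if_neg]
        intro h
        exact hb (Subtype.ext h)
      · intro h; exact absurd (Finset.mem_univ _) h
    · rw [Finset.sum_eq_zero]
      · have : (c i).coeff ν = 0 := by
          by_contra h
          exact hν (by
            rw [hU, Finset.mem_biUnion]
            exact ⟨i, Finset.mem_univ _, MvPolynomial.mem_support_iff.mpr h⟩)
        rw [this, mul_zero]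
      · intro b _
        rw [if_neg]
        intro h
        exact hν (h ▸ b.2)
  have hcVh : ∀ i, (cV i).IsHomogeneous s := by
    intro i
    refine MvPolynomial.IsHomogeneous.sum _ _ _ fun μ _ ↦ ?_
    by_cases h0 : (c i).coeff (μ : Bool →₀ ℕ) = 0
    · have : (⟨lam * (c i).coeff μ, hlamV (i, μ)⟩ : V) = 0 := by
        apply Subtype.ext
        simp [h0]
      rw [this, MvPolynomial.monomial_zero]
      exact MvPolynomial.isHomogeneous_zero _ _ _
    · refine MvPolynomial.isHomogeneous_monomial _ ?_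
      have := hch i h0
      rwa [Finsupp.degree_eq_weight_one]
  -- the combined polynomial
  let T : MvPolynomial (Gen N) V :=
    ∑ i, MvPolynomial.rename (gen1 N) (cV i) * P' (Fin.cast hcard i)
  have hTh : T.IsHomogeneous (s + m) :=
    MvPolynomial.IsHomogeneous.sum _ _ _ fun i _ ↦
      ((hcVh i).rename_isHomogeneous).mul (hP'h _)
  have hTmap : MvPolynomial.map ι T = lam • ∑ i,
      MvPolynomial.rename (gen1 N) (c i) * MvPolynomial.map ι (P' (Fin.cast hcard i)) := by
    simp only [T, map_sum, map_mul, MvPolynomial.map_rename, hcVmap, Finset.smul_sum]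
    refine Finset.sum_congr rfl fun i _ ↦ ?_
    rw [map_smul, smul_mul_assoc]
  have hζ' : ι ζ = zetaC N := hζ
  have hT0 : MvPolynomial.aeval (csC N (cos0 N)) (MvPolynomial.map ι T) = 0 := by
    rw [hTmap, map_smul, map_sum, hc, smul_zero]
  have hTα : ∀ α, MvPolynomial.aeval (cs V ζ N α) T = 0 := by
    intro α
    have h := h1 (s + m) _ (hTh.map ι) hT0 α
    have h' := kcRed_map_aeval_cs ι ζ N α T
    rw [hζ'] at h'
    rw [← h'] at h
    exact (PowerSeries.map_injective ι hιi) (by rw [h, map_zero])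
  -- reduce
  refine ⟨s, fun i ↦ MvPolynomial.map ρ (cV (Fin.cast hcard.symm i)),
    fun i ↦ (hcVh _).map ρ, ⟨Fin.cast hcard i₁, ?_⟩, fun α ↦ ?_⟩
  · intro h
    have hcoef := congrArg (MvPolynomial.coeff (μ₁ : Bool →₀ ℕ)) h
    simp only [MvPolynomial.coeff_map, MvPolynomial.coeff_zero, Fin.cast_cast, Fin.cast_eq_self]
      at hcoef
    have hcV : (cV i₁).coeff (μ₁ : Bool →₀ ℕ) = ⟨lam * (c i₁).coeff μ₁, hlamV (i₁, μ₁)⟩ := by
      simp only [cV, MvPolynomial.coeff_sum, MvPolynomial.coeff_monomial]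
      rw [Finset.sum_eq_single μ₁]
      · simp
      · intro b _ hb
        rw [if_neg]
        intro h
        exact hb (Subtype.ext h)
      · intro h; exact absurd (Finset.mem_univ _) h
    rw [hcV] at hcoef
    have hunit : IsUnit (⟨lam * (c i₁).coeff μ₁, hlamV (i₁, μ₁)⟩ : V) :=
      kcRed_isUnit V _ hu0 _ hu2
    exact (IsLocalRing.residue_ne_zero_iff_isUnit _).mpr hunit hcoef
  · have h := congrArg (PowerSeries.map ρ) (hTα α)
    rw [kcRed_map_aeval_cs, map_zero] at h
    rw [← h, ← map_sum]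
    congr 1
    simp only [T, map_sum, map_mul, MvPolynomial.map_rename, hP'm]
    refine Fintype.sum_equiv (finCongr hcard.symm) _ _ fun x ↦ ?_
    simp

end Fermat.Agent.S28
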