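import Fermat.Agent.S28.KCore.Prim
import Fermat.Agent.S28.KCore.RedRank
import Fermat.Agent.S28.KCore.RedInt
import Fermat.Agent.S28.KCore.Hdim
import Fermat.Agent.S28.KCore.Integral
import Fermat.Agent.S28.KCore.HindK
import Fermat.Agent.S28.KCore.Hind
import Fermat.Agent.S28.KCore.HF
import Fermat.Agent.S28.KCore.HInt
import Fermat.Agent.S28.KCore.Hdep

/-!
# S28 K-core: assembly.  `AC1 … AC4 ⇒` the input of Package B.
-/

set_option autoImplicit false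

open ModularCurve ModularCurve.IgusaScheme
open scoped MatrixGroups
open CongruenceSubgroup

noncomputable section

namespace Fermat.Agent.S28

/-- T8a (skeleton statement). -/
theorem kc_balanced (N : ℕ) [NeZero N] (k : Type) [Field k] (z : k) [Fintype (Cos N)]
    [DecidableEq (Cos N)] (hz : IsPrimitiveRoot z N) (h4 : AC4 N) (hR : kcRl N k z)
    (hI : kcIl N k z)
    (S : Finset (Cos N)) (e : Cos N → LaurentSeries k) (he : e ∈ kcQ N k z)
    (h1 : ∀ α ∈ S, e α = 1) (h0 : ∀ α, α ∉ S → e α = 0) (d : ℕ) (hd : d ∈ N.divisors) :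
    ∑ α ∈ S, (((Nat.gcd d (cA N α N) : ℤ)) ^ 2 - d) = 0 :=
  kcT8_balanced_of hz h4 (kc_hdim N k z hz hR) (kc_integral N k z hz hI) S e he h1 h0 d hd

/-- T8b (skeleton statement). -/
theorem kc_hid (N : ℕ) [NeZero N] (k : Type) [Field k] (z : k) [Fintype (Cos N)]
    [DecidableEq (Cos N)] (hz : IsPrimitiveRoot z N) (h4 : AC4 N) (hR : kcRl N k z)
    (hI : kcIl N k z)
    (S : Finset (Cos N)) (e : Cos N → LaurentSeries k) (he : e ∈ kcQ N k z)
    (h1 : ∀ α ∈ S, e α = 1) (h0 : ∀ α, α ∉ S → e α = 0) : S = ∅ ∨ S = Finset.univ :=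
  kcT8_hid_of hz h4 (kc_hdim N k z hz hR) (kc_integral N k z hz hI) S e he h1 h0

/-- T9 (skeleton statement). -/
theorem kc_hind_k (N : ℕ) [NeZero N] (k : Type) [Field k] (z : k) [Fintype (Cos N)]
    [DecidableEq (Cos N)] (hz : IsPrimitiveRoot z N) (h4 : AC4 N) (hR : kcRl N k z)
    (hI : kcIl N k z) :
    ∃ e : Fin (Fintype.card (Cos N)) → (N.divisors → ℕ),
      LinearIndependent ↥(kcB N k)
        (fun i => ∏ d : N.divisors, (kcJ N k z d (cos0 N)) ^ (e i d)) :=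
  kcT9_hind_k_of hz h4 (kc_hdim N k z hz hR) (kc_integral N k z hz hI)

/-- **K-core.** -/
theorem kcore (N : ℕ) [NeZero N] (ℓ : ℕ) [Fact ℓ.Prime] (hℓN : ¬ ℓ ∣ N)
    (h1 : AC1 N) (h2 : AC2 N) (h3 : AC3 N) (h4 : AC4 N) :
    ∃ (n : ℕ) (x : Fin n → LaurentSeries ℤ),
      (∀ i, (x i).map (Int.castRingHom ℚ) ∈ modularFunctionFieldFull N) ∧
      (∀ i, ∀ hF : (x i).map (Int.castRingHom ℚ) ∈ modularFunctionFieldFull N,
        (⟨(x i).map (Int.castRingHom ℚ), hF⟩ : modularFunctionFieldFull N) ∈ chartAlgFin N ℓ) ∧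
      (∀ m ∈ modularFunctionFieldFull N, ∃ (c₀ : Polynomial ℤ) (c : Fin n → Polynomial ℤ),
        (c₀ ≠ 0 ∨ ∃ i, c i ≠ 0) ∧
        Polynomial.aeval jq c₀ * m +
          ∑ i, Polynomial.aeval jq (c i) * (x i).map (Int.castRingHom ℚ) = 0) ∧
      (∀ c : Fin n → Polynomial (ZMod ℓ),
        ∑ i, Polynomial.aeval (jA' (ZMod ℓ)) (c i) *
          (x i).map (Int.castRingHom (ZMod ℓ)) = 0 → ∀ i, c i = 0) := by
  classical
  have hℓ : ℓ.Prime := Fact.out
  letI : Fintype (Cos N) := Fintype.ofFinite _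
  obtain ⟨V, -, hV⟩ := exists_valuationSubring_prime ℓ hℓ
  have hζV : zetaC N ∈ V := by
    refine mem_valuationSubring_of_isIntegral V _ ?_
    refine ⟨Polynomial.X ^ N - 1, Polynomial.monic_X_pow_sub_C 1 (NeZero.ne N), ?_⟩
    have hpow : zetaC N ^ N = 1 := by
      unfold zetaC
      rw [← Complex.exp_nat_mul, mul_div_cancel₀ _ (by exact_mod_cast NeZero.ne N)]
      exact Complex.exp_two_pi_mul_I
    simp [hpow]
  have hNV := inv_natCast_mem_valuationSubring V ℓ hℓ hV N hℓN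
  have := charP_residueField_valuationSubring V ℓ hℓ hV
  have hz := kc_primitive N ℓ hℓ hℓN V hV ⟨zetaC N, hζV⟩ rfl
  have hR := kc_Rl_of_AC N V ⟨zetaC N, hζV⟩ rfl h1 h2
  have hI := kc_Il_of_AC N V hNV ⟨zetaC N, hζV⟩ rfl h1 h3
  obtain ⟨e, he⟩ := kc_hind_k N _ _ hz h4 hR hI
  refine ⟨Fintype.card (Cos N), fun i => kcMono N ℤ (e i), fun i => kc_hF N (e i),
    fun i hF => kc_hInt N ℓ hℓN h3 (e i) hF, ?_, ?_⟩
  · exact kc_hdep N h2 _ (fun i => kc_hF N (e i))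
  · exact kc_hind N _ _ ℓ hz _ e he

end Fermat.Agent.S28
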