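import Mathlib

/-!
# S28 K-core: an element of `K(x)` (x transcendental) which is integral over `K[x]` together with
its inverse is a nonzero constant.
-/

set_option autoImplicit false

open Polynomial
open scoped IntermediateField.algebraAdjoinAdjoin

namespace Fermat.Agent.S28

variable {K L : Type} [Field K] [Field L] [Algebra K L]

/-- `K[x]` is integrally closed for transcendental `x`. -/
theorem kcT8_isIntegrallyClosed_adjoin {x : L} (hx : Transcendental K x) :
    IsIntegrallyClosed ↥(Algebra.adjoin K {x}) := by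
  have hinj : Function.Injective (aeval (R := K) x) := transcendental_iff_injective.1 hx
  let e : K[X] ≃ₐ[K] ↥(aeval (R := K) x).range := AlgEquiv.ofInjective _ hinj
  have h2 : (aeval (R := K) x).range = Algebra.adjoin K {x} :=
    (Algebra.adjoin_singleton_eq_range_aeval K x).symm
  let e' : K[X] ≃ₐ[K] ↥(Algebra.adjoin K {x}) := e.trans (Subalgebra.equivOfEq _ _ h2)
  exact IsIntegrallyClosed.of_equiv e'.toRingEquiv

/-- an element of `K(x)` integral over `K[x]` lies in `K[x]`. -/
theorem kcT8_mem_adjoin_of_isIntegral {x : L} (hx : Transcendental K x) {c : L}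
    (hc : c ∈ IntermediateField.adjoin K {x}) (hint : IsIntegral ↥(Algebra.adjoin K {x}) c) :
    ∃ P : K[X], aeval x P = c := by
  have := kcT8_isIntegrallyClosed_adjoin hx
  have h1 : IsIntegral ↥(Algebra.adjoin K {x})
      (⟨c, hc⟩ : ↥(IntermediateField.adjoin K {x})) := by
    rw [← isIntegral_algebraMap_iff
      (algebraMap ↥(IntermediateField.adjoin K {x}) L).injective]
    exact hint
  obtain ⟨r, hr⟩ := IsIntegrallyClosed.isIntegral_iff.1 h1
  have hr' : (r : L) = c := congrArg Subtype.val hr
  have hmem : (r : L) ∈ (aeval (R := K) x).range := by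
    rw [← Algebra.adjoin_singleton_eq_range_aeval]
    exact r.2
  obtain ⟨P, hP⟩ := hmem
  exact ⟨P, hP.trans hr'⟩

/-- an element of `K(x)` which is integral over `K[x]` together with an inverse is a nonzero
constant. -/
theorem kcT8_const {x : L} (hx : Transcendental K x) {c c' : L}
    (hc : c ∈ IntermediateField.adjoin K {x}) (hc' : c' ∈ IntermediateField.adjoin K {x})
    (hint : IsIntegral ↥(Algebra.adjoin K {x}) c)
    (hint' : IsIntegral ↥(Algebra.adjoin K {x}) c') (h1 : c * c' = 1) :
    ∃ a : K, a ≠ 0 ∧ c = algebraMap K L a := by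
  obtain ⟨P, hP⟩ := kcT8_mem_adjoin_of_isIntegral hx hc hint
  obtain ⟨P', hP'⟩ := kcT8_mem_adjoin_of_isIntegral hx hc' hint'
  have hinj : Function.Injective (aeval (R := K) x) := transcendental_iff_injective.1 hx
  have hPP : P * P' = 1 := by
    apply hinj
    rw [map_mul, hP, hP', h1, map_one]
  have hu : IsUnit P := IsUnit.of_mul_eq_one _ hPP
  obtain ⟨a, ha, rfl⟩ := Polynomial.isUnit_iff.1 hu
  refine ⟨a, ha.ne_zero, ?_⟩
  rw [← hP, aeval_C]

end Fermat.Agent.S28
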