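import Fermat.Agent.S28.KCore.Basic

/-!
# S28 K-core, T6: `J_N` separates the conjugates
-/

set_option autoImplicit false
set_option linter.unusedSectionVars false

open scoped MatrixGroups
open CongruenceSubgroup

noncomputable section

namespace Fermat.Agent.S28

/-- coefficient of a product at the order of the second factor. -/
theorem kcT6_coeff_mul_order {R : Type*} [CommRing R] (f g : PowerSeries R) (M : ℕ)
    (hg : ∀ i < M, PowerSeries.coeff i g = 0) :
    PowerSeries.coeff M (f * g) = PowerSeries.coeff 0 f * PowerSeries.coeff M g := by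
  rw [PowerSeries.coeff_mul]
  rw [Finset.sum_eq_single (0, M)]
  · rintro ⟨i, j⟩ hij hne
    rw [Finset.HasAntidiagonal.mem_antidiagonal] at hij
    simp only at hij
    have hj : j < M := by
      rcases Nat.eq_zero_or_pos i with rfl | hi
      · exfalso; apply hne; simp at hij; rw [hij]
      · omega
    rw [hg j hj, mul_zero]
  · intro h
    exact absurd (Finset.HasAntidiagonal.mem_antidiagonal.2 (by simp)) h

section

variable (N : ℕ) [NeZero N] (k : Type) [Field k] (z : k)

theorem kcT6_N_mem : N ∈ N.divisors := Nat.mem_divisors.2 ⟨dvd_rfl, NeZero.ne N⟩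

variable {N k z}

/-- equality of `J_d` at two conjugates, cross-multiplied in `k[[t]]`. -/
theorem kcT6_cross (hz : IsPrimitiveRoot z N) (d : N.divisors) (α β : Cos N)
    (h : kcJ N k z d α = kcJ N k z d β) :
    cs k z N α (true, d) * cs k z N β (false, d) =
      cs k z N β (true, d) * cs k z N α (false, d) := by
  unfold kcJ at h
  rw [div_eq_div_iff (kcY_ne_zero hz α _) (kcY_ne_zero hz β _)] at h
  unfold kcY at h
  rw [← map_mul, ← map_mul] at h
  exact (HahnSeries.ofPowerSeries_injective (Γ := ℤ) (R := k)) h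

theorem kcT6_order_true (hz : IsPrimitiveRoot z N) (α : Cos N) (d : N.divisors) :
    (cs k z N α (true, d)).order = 0 := by
  have h : (cs k z N α (true, d)).order = ((0 : ℕ) : ℕ∞) := by
    rw [PowerSeries.order_eq_nat]
    exact ⟨kc_coeff_zero_cs_true hz α d, fun i hi => absurd hi (Nat.not_lt_zero i)⟩
  simpa using h

/-- `J_d α = J_d β` forces equal orders and equal leading coefficients. -/
theorem kcT6_data_eq (hz : IsPrimitiveRoot z N) (d : N.divisors) (α β : Cos N)
    (h : kcJ N k z d α = kcJ N k z d β) :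
    kcM N α d = kcM N β d ∧
      (cA N α d : k) ^ 12 * ((cA N β d : k) ^ 12 * z ^ (cB N β d * (N / cD N β d))) =
        (cA N β d : k) ^ 12 * ((cA N α d : k) ^ 12 * z ^ (cB N α d * (N / cD N α d))) := by
  have hc := kcT6_cross hz d α β h
  have hord := congrArg PowerSeries.order hc
  rw [PowerSeries.order_mul, PowerSeries.order_mul, kcT6_order_true hz, kcT6_order_true hz,
    kc_order_cs_false hz, kc_order_cs_false hz, zero_add, zero_add] at hord
  have hM : kcM N β d = kcM N α d := by exact_mod_cast hord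
  refine ⟨hM.symm, ?_⟩
  have hcoef := congrArg (PowerSeries.coeff (kcM N α d)) hc
  have hlt : ∀ γ : Cos N, ∀ i < kcM N γ d, PowerSeries.coeff i (cs k z N γ (false, d)) = 0 := by
    intro γ i hi
    apply PowerSeries.coeff_of_lt_order
    rw [kc_order_cs_false hz]
    exact_mod_cast hi
  rw [kcT6_coeff_mul_order _ _ _ (hlt α)] at hcoef
  rw [← hM, kcT6_coeff_mul_order _ _ _ (hlt β)] at hcoef
  rw [kc_coeff_zero_cs, kc_coeff_zero_cs, kc_coeff_M_cs, coeff_zero_baseSeries_true,
    coeff_one_baseSeries_false] at hcoef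
  rw [hM, kc_coeff_M_cs, coeff_one_baseSeries_false] at hcoef
  simpa using hcoef

variable (N k z)

/-- T6 -/
theorem kc_hsep (hz : IsPrimitiveRoot z N) (h4 : AC4 N) (α β : Cos N) (hαβ : α ≠ β) :
    ∃ x ∈ kcQ' N k z, x α ≠ x β := by
  have hN : 0 < N := Nat.pos_of_ne_zero (NeZero.ne N)
  refine ⟨kcJ N k z ⟨N, kcT6_N_mem N⟩, Algebra.subset_adjoin ⟨_, rfl⟩, fun h => hαβ ?_⟩
  obtain ⟨hM, hlead⟩ := kcT6_data_eq hz ⟨N, kcT6_N_mem N⟩ α β h
  simp only at hM hlead
  -- equal `a`
  have hA : cA N α N = cA N β N := by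
    have h1 := kcM_mul N (dvd_refl N) α
    have h2 := kcM_mul N (dvd_refl N) β
    rw [hM, h2] at h1
    have h3 : cA N β N ^ 2 = cA N α N ^ 2 := Nat.eq_of_mul_eq_mul_right hN h1
    exact (Nat.pow_left_injective (n := 2) (by norm_num) h3).symm
  have hD : cD N α N = cD N β N := by unfold cD; rw [hA]
  refine h4 α β hA ?_
  -- equal `b`
  rw [hA, hD] at hlead
  have hA0 : (cA N β N : k) ^ 12 ≠ 0 :=
    pow_ne_zero 12 (kc_cA_ne_zero hz β ⟨N, kcT6_N_mem N⟩)
  have hpow : z ^ (cB N β N * (N / cD N β N)) = z ^ (cB N α N * (N / cD N β N)) :=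
    mul_left_cancel₀ hA0 (mul_left_cancel₀ hA0 hlead)
  have hDdvd : cD N β N ∣ N := kc_cD_dvd N (dvd_refl N) β
  have hDpos : 0 < cD N β N := cD_pos N β hN
  have hq : 0 < N / cD N β N := Nat.div_pos (Nat.le_of_dvd hN hDdvd) hDpos
  have hlt : ∀ b, b < cD N β N → b * (N / cD N β N) < N := by
    intro b hb
    calc b * (N / cD N β N) < cD N β N * (N / cD N β N) := Nat.mul_lt_mul_of_pos_right hb hq
      _ = N := Nat.mul_div_cancel' hDdvd
  have hbα : cB N α N < cD N β N := by rw [← hD]; exact cB_lt N α hN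
  have hbβ : cB N β N < cD N β N := cB_lt N β hN
  have := hz.pow_inj (hlt _ hbβ) (hlt _ hbα) hpow
  exact (Nat.eq_of_mul_eq_mul_right hq this).symm

end

end Fermat.Agent.S28
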