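import Fermat.Agent.S28.KCore.Basic
import Fermat.Agent.S28.KCore.Hsep
import Fermat.Agent.S28.KCore.Const
import Fermat.Agent.S28.Dedekind

/-!
# S28 K-core, T8a: idempotents of `Q` are balanced

`kcT8_balanced_of` : from `hdim` (T5) and the integrality of `U_d(α)^{±1}` (T7).
-/

set_option autoImplicit false
set_option linter.unusedSectionVars false

open scoped MatrixGroups
open CongruenceSubgroup

noncomputable section

namespace Fermat.Agent.S28

section

variable {N : ℕ} [NeZero N] {k : Type} [Field k] {z : k} [Fintype (Cos N)] [DecidableEq (Cos N)]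

theorem kcT8_Q'_le_Q : kcQ' N k z ≤ kcQ N k z :=
  Algebra.adjoin_mono (fun _ hx => Or.inl (Or.inl hx))

theorem kcT8_kcU_mem (d : N.divisors) : kcU N k z d ∈ kcQ N k z :=
  Algebra.subset_adjoin (Or.inl (Or.inr ⟨d, rfl⟩))

theorem kcT8_kcUinv_mem (d : N.divisors) : kcUinv N k z d ∈ kcQ N k z :=
  Algebra.subset_adjoin (Or.inr ⟨d, rfl⟩)

theorem kcT8_kcJ_mem (d : N.divisors) : kcJ N k z d ∈ kcQ N k z :=
  Algebra.subset_adjoin (Or.inl (Or.inl ⟨d, rfl⟩))

/-- the product over all `α` of a vector of `Q` lies in `k(j̄)`. -/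
theorem kcT8_prod_mem (hz : IsPrimitiveRoot z N) (h4 : AC4 N)
    (hdim : ∀ y : Fin (Fintype.card (Cos N) + 1) → (Cos N → LaurentSeries k),
      (∀ i, y i ∈ kcQ N k z) → ¬ LinearIndependent ↥(kcB N k) y)
    (u : Cos N → LaurentSeries k) (hu : u ∈ kcQ N k z) :
    ∏ α, u α ∈ kcB N k := by
  have hsep : ∀ α β : Cos N, α ≠ β → ∃ x ∈ kcQ N k z, x α ≠ x β := by
    intro α β hne
    obtain ⟨x, hx, hxne⟩ := kc_hsep N k z hz h4 α β hne
    exact ⟨x, kcT8_Q'_le_Q hx, hxne⟩
  obtain ⟨p, -, hp⟩ := charpoly_of_sep (kcQ N k z) hdim hsep u hu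
  have h0 := congrArg (Polynomial.eval 0) hp
  rw [Polynomial.eval_map, Polynomial.eval₂_at_zero, Polynomial.eval_prod] at h0
  simp only [Polynomial.eval_sub, Polynomial.eval_X, Polynomial.eval_C, zero_sub,
    Finset.prod_neg, Finset.card_univ] at h0
  -- `∏ u = (-1)^ψ * p(0)`
  have h1 : ∏ α, u α = (-1) ^ Fintype.card (Cos N) *
      algebraMap ↥(kcB N k) (LaurentSeries k) (p.coeff 0) := by
    rw [h0, ← mul_assoc, ← mul_pow]
    simp
  rw [h1]
  exact mul_mem (pow_mem (neg_mem (one_mem _)) _) (p.coeff 0).2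

/-- the modified vector `e u + (1 - e)`. -/
theorem kcT8_modified_mem {e u : Cos N → LaurentSeries k} (he : e ∈ kcQ N k z)
    (hu : u ∈ kcQ N k z) : e * u + (1 - e) ∈ kcQ N k z :=
  (kcQ N k z).add_mem ((kcQ N k z).mul_mem he hu)
    ((kcQ N k z).sub_mem (kcQ N k z).one_mem he)

theorem kcT8_prod_modified (S : Finset (Cos N)) {e u : Cos N → LaurentSeries k}
    (h1 : ∀ α ∈ S, e α = 1) (h0 : ∀ α, α ∉ S → e α = 0) :
    ∏ α, (e * u + (1 - e)) α = ∏ α ∈ S, u α := by
  rw [← Finset.prod_subset (Finset.subset_univ S)]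
  · refine Finset.prod_congr rfl fun α hα => ?_
    simp [h1 α hα]
  · intro α _ hα
    simp [h0 α hα]

/-- the key constant: `∏_{α ∈ S} U_d(α)` is a nonzero constant. -/
theorem kcT8_prod_const (hz : IsPrimitiveRoot z N) (h4 : AC4 N)
    (hdim : ∀ y : Fin (Fintype.card (Cos N) + 1) → (Cos N → LaurentSeries k),
      (∀ i, y i ∈ kcQ N k z) → ¬ LinearIndependent ↥(kcB N k) y)
    (hint : ∀ (d : N.divisors) (α : Cos N),
      IsIntegral ↥(kcR N k) (kcU N k z d α) ∧ IsIntegral ↥(kcR N k) (kcUinv N k z d α))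
    (S : Finset (Cos N)) (e : Cos N → LaurentSeries k) (he : e ∈ kcQ N k z)
    (h1 : ∀ α ∈ S, e α = 1) (h0 : ∀ α, α ∉ S → e α = 0) (d : N.divisors) :
    ∃ a : k, a ≠ 0 ∧ ∏ α ∈ S, kcU N k z d α = algebraMap k (LaurentSeries k) a := by
  have hm := kcT8_prod_mem hz h4 hdim _ (kcT8_modified_mem he (kcT8_kcU_mem d))
  have hm' := kcT8_prod_mem hz h4 hdim _ (kcT8_modified_mem he (kcT8_kcUinv_mem d))
  rw [kcT8_prod_modified S h1 h0] at hm hm'
  have hi : IsIntegral ↥(kcR N k) (∏ α ∈ S, kcU N k z d α) :=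
    IsIntegral.prod _ fun α _ => (hint d α).1
  have hi' : IsIntegral ↥(kcR N k) (∏ α ∈ S, kcUinv N k z d α) :=
    IsIntegral.prod _ fun α _ => (hint d α).2
  have hone : (∏ α ∈ S, kcU N k z d α) * (∏ α ∈ S, kcUinv N k z d α) = 1 := by
    rw [← Finset.prod_mul_distrib]
    refine Finset.prod_eq_one fun α _ => ?_
    unfold kcU kcUinv
    have hD := kc_ofPS_ne_zero k (kc_kcBase_false_ne_zero N k)
    have hY := kcY_ne_zero hz α (false, d)
    field_simp
  exact kcT8_const (kc_kcj_transcendental N k) hm hm' hi hi' hone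

/-- sum of the orders. -/
theorem kcT8_sum_kcM (hz : IsPrimitiveRoot z N) (S : Finset (Cos N)) (d : N.divisors) (a : k)
    (ha : a ≠ 0)
    (h : ∏ α ∈ S, kcU N k z d α = algebraMap k (LaurentSeries k) a) :
    ∑ α ∈ S, kcM N α d = S.card * N := by
  have hD := kc_ofPS_ne_zero k (kc_kcBase_false_ne_zero N k)
  -- cross-multiply in `k((t))`
  have h1 : ∏ α ∈ S, kcY N k z (false, d) α =
      algebraMap k (LaurentSeries k) a *
        HahnSeries.ofPowerSeries ℤ k (kcBase N k false) ^ S.card := by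
    unfold kcU at h
    rw [Finset.prod_div_distrib, Finset.prod_const, div_eq_iff (pow_ne_zero _ hD)] at h
    exact h
  -- pull back to `k[[t]]`
  have h2 : ∏ α ∈ S, cs k z N α (false, d) = PowerSeries.C a * kcBase N k false ^ S.card := by
    apply HahnSeries.ofPowerSeries_injective (Γ := ℤ) (R := k)
    rw [map_prod, map_mul, map_pow, ← kc_algebraMap_eq_C]
    exact h1
  have h3 := congrArg PowerSeries.order h2
  rw [PowerSeries.order_prod, PowerSeries.order_mul, PowerSeries.order_pow,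
    kc_order_kcBase_false] at h3
  have hC : (PowerSeries.C a : PowerSeries k).order = 0 := by
    have : (PowerSeries.C a : PowerSeries k).order = ((0 : ℕ) : ℕ∞) := by
      rw [PowerSeries.order_eq_nat]
      refine ⟨?_, fun i hi => absurd hi (Nat.not_lt_zero i)⟩
      simpa using ha
    simpa using this
  rw [hC, zero_add] at h3
  have h4 : ∑ α ∈ S, (cs k z N α (false, d)).order = ((∑ α ∈ S, kcM N α d : ℕ) : ℕ∞) := by
    rw [Nat.cast_sum]
    exact Finset.sum_congr rfl fun α _ => kc_order_cs_false hz α d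
  rw [h4] at h3
  have h5 : (S.card • (N : ℕ∞)) = ((S.card * N : ℕ) : ℕ∞) := by
    rw [nsmul_eq_mul]; push_cast; rfl
  rw [h5] at h3
  exact_mod_cast h3

/-- T8a, from `hdim` and integrality. -/
theorem kcT8_balanced_of (hz : IsPrimitiveRoot z N) (h4 : AC4 N)
    (hdim : ∀ y : Fin (Fintype.card (Cos N) + 1) → (Cos N → LaurentSeries k),
      (∀ i, y i ∈ kcQ N k z) → ¬ LinearIndependent ↥(kcB N k) y)
    (hint : ∀ (d : N.divisors) (α : Cos N),
      IsIntegral ↥(kcR N k) (kcU N k z d α) ∧ IsIntegral ↥(kcR N k) (kcUinv N k z d α))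
    (S : Finset (Cos N)) (e : Cos N → LaurentSeries k) (he : e ∈ kcQ N k z)
    (h1 : ∀ α ∈ S, e α = 1) (h0 : ∀ α, α ∉ S → e α = 0) (d : ℕ) (hd : d ∈ N.divisors) :
    ∑ α ∈ S, (((Nat.gcd d (cA N α N) : ℤ)) ^ 2 - d) = 0 := by
  have hN : 0 < N := Nat.pos_of_ne_zero (NeZero.ne N)
  have hdN : d ∣ N := Nat.dvd_of_mem_divisors hd
  obtain ⟨a, ha, hprod⟩ := kcT8_prod_const hz h4 hdim hint S e he h1 h0 ⟨d, hd⟩
  have hsum := kcT8_sum_kcM hz S ⟨d, hd⟩ a ha hprod
  simp only at hsum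
  -- multiply by `d`
  have h2 : ∑ α ∈ S, cA N α d ^ 2 = S.card * d := by
    have h3 : (∑ α ∈ S, cA N α d ^ 2) * N = (S.card * d) * N := by
      rw [Finset.sum_mul]
      calc ∑ α ∈ S, cA N α d ^ 2 * N = ∑ α ∈ S, d * kcM N α d :=
            Finset.sum_congr rfl fun α _ => (kcM_mul N hdN α).symm
        _ = d * ∑ α ∈ S, kcM N α d := by rw [Finset.mul_sum]
        _ = S.card * d * N := by rw [hsum]; ring
    exact Nat.eq_of_mul_eq_mul_right hN h3
  rw [Finset.sum_sub_distrib, Finset.sum_const, nsmul_eq_mul, sub_eq_zero]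
  have h5 : ∑ α ∈ S, ((Nat.gcd d (cA N α N) : ℤ)) ^ 2 = ((∑ α ∈ S, cA N α d ^ 2 : ℕ) : ℤ) := by
    push_cast
    exact Finset.sum_congr rfl fun α _ => by rw [cA_eq_gcd N α hdN]
  rw [h5, h2]
  push_cast
  ring

end

end Fermat.Agent.S28
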