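import Fermat.Agent.S28.KCore.Defs
import Fermat.Agent.S28.ValRing
import Mathlib.RingTheory.Polynomial.Cyclotomic.Roots
import Mathlib.RingTheory.RootsOfUnity.Complex

/-!
# S28 K-core, piece T1: `ζ_N` stays primitive in the residue field
-/

set_option autoImplicit false

noncomputable section

namespace Fermat.Agent.S28

theorem kcT1_isPrimitiveRoot_zetaC (N : ℕ) [NeZero N] : IsPrimitiveRoot (zetaC N) N := by
  unfold zetaC
  exact Complex.isPrimitiveRoot_exp N (NeZero.ne N)

/-- T1 -/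
theorem kc_primitive (N : ℕ) [NeZero N] (ℓ : ℕ) (hℓ : ℓ.Prime) (hℓN : ¬ ℓ ∣ N)
    (V : ValuationSubring ℂ) (hV : ((ℓ : ℂ))⁻¹ ∉ V) (ζ : V) (hζ : (ζ : ℂ) = zetaC N) :
    IsPrimitiveRoot (IsLocalRing.residue V ζ) N := by
  have := charP_residueField_valuationSubring V ℓ hℓ hV
  have : NeZero ((N : ℕ) : IsLocalRing.ResidueField V) := by
    refine ⟨fun h ↦ hℓN ?_⟩
    exact (CharP.cast_eq_zero_iff (IsLocalRing.ResidueField V) ℓ N).mp h
  have h1 : IsPrimitiveRoot ζ N := by
    refine IsPrimitiveRoot.of_map_of_injective (f := V.subtype) ?_ Subtype.val_injective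
    show IsPrimitiveRoot (ζ : ℂ) N
    rw [hζ]
    exact kcT1_isPrimitiveRoot_zetaC N
  have h2 : (Polynomial.cyclotomic N V).IsRoot ζ := h1.isRoot_cyclotomic (NeZero.pos N)
  have h3 := h2.map (f := IsLocalRing.residue V)
  rw [Polynomial.map_cyclotomic] at h3
  exact Polynomial.isRoot_cyclotomic_iff.mp h3

end Fermat.Agent.S28
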