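import Fermat.Agent.S28.KCore.Defs
import Fermat.Agent.S28.ValRing

/-!
# S28 K-core: auxiliary lemmas for the reduction from `ℂ` to the residue field (T2, T3)
-/

set_option autoImplicit false

open scoped MatrixGroups
open CongruenceSubgroup

noncomputable section

namespace Fermat.Agent.S28

/-- base change of polynomial expressions in power series -/
theorem kcRed_map_aeval {σ A B : Type*} [CommRing A] [CommRing B] (φ : A →+* B)
    (f : σ → PowerSeries A) (T : MvPolynomial σ A) :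
    PowerSeries.map φ (MvPolynomial.aeval f T) =
      MvPolynomial.aeval (fun g ↦ PowerSeries.map φ (f g)) (MvPolynomial.map φ T) := by
  induction T using MvPolynomial.induction_on with
  | C a =>
    simp only [MvPolynomial.aeval_C, MvPolynomial.map_C]
    ext n
    simp [PowerSeries.coeff_C]
  | add p q hp hq => simp only [map_add, hp, hq]
  | mul_X p i hp => simp only [map_mul, hp, MvPolynomial.aeval_X, MvPolynomial.map_X]

theorem kcRed_map_aeval_cs {A B : Type*} [CommRing A] [CommRing B] (φ : A →+* B) (z : A) (N : ℕ)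
    (α : Cos N) (T : MvPolynomial (Gen N) A) :
    PowerSeries.map φ (MvPolynomial.aeval (cs A z N α) T) =
      MvPolynomial.aeval (cs B (φ z) N α) (MvPolynomial.map φ T) := by
  rw [kcRed_map_aeval]
  congr 2
  ext g : 1
  exact map_cs φ z N α g

/-- lifting a homogeneous polynomial along a surjective ring homomorphism -/
theorem kcRed_exists_lift {σ A B : Type*} [CommRing A] [CommRing B] (φ : A →+* B)
    (hφ : Function.Surjective φ) {m : ℕ} (P : MvPolynomial σ B) (hP : P.IsHomogeneous m) :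
    ∃ P' : MvPolynomial σ A, P'.IsHomogeneous m ∧ MvPolynomial.map φ P' = P := by
  classical
  refine ⟨∑ μ ∈ P.support, MvPolynomial.monomial μ (Function.surjInv hφ (P.coeff μ)), ?_, ?_⟩
  · refine MvPolynomial.IsHomogeneous.sum _ _ _ fun μ hμ ↦ ?_
    refine MvPolynomial.isHomogeneous_monomial _ ?_
    have := hP (MvPolynomial.mem_support_iff.mp hμ)
    rwa [Finsupp.degree_eq_weight_one]
  · rw [map_sum]
    simp only [MvPolynomial.map_monomial, Function.surjInv_eq hφ]
    exact MvPolynomial.support_sum_monomial_coeff P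


/-- strengthened V4: the unit member is nonzero -/
theorem kcRed_exists_scale (V : ValuationSubring ℂ) {ι : Type} [Finite ι] (x : ι → ℂ)
    (hx : x ≠ 0) :
    ∃ c : ℂ, c ≠ 0 ∧ (∀ i, c * x i ∈ V) ∧ ∃ i, c * x i ≠ 0 ∧ c * x i ∈ V ∧ (c * x i)⁻¹ ∈ V := by
  classical
  obtain ⟨k, hk⟩ : ∃ k, x k ≠ 0 := by
    by_contra h
    push Not at h
    exact hx (funext h)
  have hx' : (fun p : {i // x i ≠ 0} ↦ x p.1) ≠ 0 := fun h ↦ hk (congrFun h ⟨k, hk⟩)
  obtain ⟨c, hc0, hcV, ⟨i, hi⟩, hu1, hu2⟩ :=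
    exists_scale_valuationSubring V (fun p : {i // x i ≠ 0} ↦ x p.1) hx'
  refine ⟨c, hc0, fun j ↦ ?_, i, mul_ne_zero hc0 hi, hu1, hu2⟩
  by_cases hj : x j = 0
  · rw [hj, mul_zero]; exact V.zero_mem
  · exact hcV ⟨j, hj⟩

/-- a nonzero element of `V` whose inverse lies in `V` is a unit of `V` -/
theorem kcRed_isUnit (V : ValuationSubring ℂ) (y : ℂ) (hy0 : y ≠ 0) (hy : y ∈ V)
    (hy' : y⁻¹ ∈ V) : IsUnit (⟨y, hy⟩ : V) := by
  refine ⟨⟨⟨y, hy⟩, ⟨y⁻¹, hy'⟩, ?_, ?_⟩, rfl⟩
  · apply Subtype.ext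
    simp [mul_inv_cancel₀ hy0]
  · apply Subtype.ext
    simp [inv_mul_cancel₀ hy0]

end Fermat.Agent.S28
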